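import Fermat.Agent.Jac.Glue.ModGlue

/-!
# S25: pushing sections and rigidifications forward along open immersions
-/

set_option autoImplicit false
set_option linter.unusedVariables false

universe u

open CategoryTheory AlgebraicGeometry TopologicalSpace Opposite

noncomputable section

namespace FLTAgent.Jac

namespace Glue

variable {X X' T T' : Scheme.{u}}

/-! ### Functions along an open immersion -/

section appEquiv

variable (f : T' ⟶ T) [IsOpenImmersion f] {U : T.Opens} (hU : U ≤ f.opensRange)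

include hU in
theorem app_bijective : Function.Bijective (f.app U) := by
  have := f.isIso_app U hU
  exact ConcreteCategory.bijective_of_isIso (f.app U)

/-- A function on the source, seen on the target. -/
def unApp (y : Γ(T', f ⁻¹ᵁ U)) : Γ(T, U) :=
  ((app_bijective f hU).2 y).choose

theorem app_unApp (y : Γ(T', f ⁻¹ᵁ U)) : f.app U (unApp f hU y) = y :=
  ((app_bijective f hU).2 y).choose_spec

end appEquiv

/-- Naturality of functions in a commutative square. -/
theorem app_square {σ' : T' ⟶ X'} {j : X' ⟶ X} {f : T' ⟶ T} {σ : T ⟶ X} (e : σ' ≫ j = f ≫ σ)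
    (V : X.Opens) : ∃ h : f ⁻¹ᵁ σ ⁻¹ᵁ V ≤ σ' ⁻¹ᵁ j ⁻¹ᵁ V, ∀ r : Γ(X, V),
      resO T' h (σ'.app (j ⁻¹ᵁ V) (j.app V r)) = f.app (σ ⁻¹ᵁ V) (σ.app V r) := by
  have h0 : f ⁻¹ᵁ σ ⁻¹ᵁ V = σ' ⁻¹ᵁ j ⁻¹ᵁ V := by
    rw [← Scheme.Hom.comp_preimage, ← Scheme.Hom.comp_preimage, e]
  refine ⟨h0.le, fun r => ?_⟩
  have h1 := ConcreteCategory.congr_hom (Scheme.Hom.congr_app e.symm V) r
  simp only [Scheme.Hom.comp_app] at h1
  exact h1.symm

/-! ### Pushforward -/

/-- A section of a pushforward, seen on the source. -/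
def pFwd {j : X' ⟶ X} {L : X'.Modules} {V : X.Opens}
    (x : Γ((Scheme.Modules.pushforward j).obj L, V)) : Γ(L, j ⁻¹ᵁ V) := x

/-- A section of the source, seen in the pushforward. -/
def toPFwd (j : X' ⟶ X) (L : X'.Modules) (V : X.Opens) (x : Γ(L, j ⁻¹ᵁ V)) :
    Γ((Scheme.Modules.pushforward j).obj L, V) := x

theorem pFwd_smul {j : X' ⟶ X} {L : X'.Modules} {V : X.Opens} (r : Γ(X, V))
    (x : Γ((Scheme.Modules.pushforward j).obj L, V)) :
    pFwd (r • x) = j.app V r • pFwd x :=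
  rfl

theorem pFwd_res {j : X' ⟶ X} {L : X'.Modules} {V W : X.Opens} (h : W ≤ V)
    (x : Γ((Scheme.Modules.pushforward j).obj L, V)) :
    pFwd (res _ h x) = res L (j.preimage_mono h) (pFwd x) :=
  rfl

/-- A locally free rank one sheaf stays so after pushing along an open immersion. -/
theorem LineLike.pushforward (j : X' ⟶ X) [IsOpenImmersion j] {L : X'.Modules}
    (hL : LineLike L ⊤) {Ω : X.Opens} (hΩ : Ω ≤ j.opensRange) :
    LineLike ((Scheme.Modules.pushforward j).obj L) Ω := by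
  intro p hp
  obtain ⟨q, rfl⟩ := hΩ hp
  obtain ⟨U, -, g, hq, hg⟩ := hL q trivial
  have hle : j ⁻¹ᵁ (j ''ᵁ U ⊓ Ω) ≤ U :=
    (j.preimage_mono inf_le_left).trans (j.preimage_image_eq U).le
  refine ⟨j ''ᵁ U ⊓ Ω, inf_le_right, toPFwd j L _ (res L hle g), ⟨⟨q, hq, rfl⟩, hp⟩, fun V hV => ?_⟩
  have hb : Function.Bijective (j.app V) :=
    app_bijective j (hV.trans (inf_le_right.trans hΩ))
  have hc := (hg (j ⁻¹ᵁ V) ((j.preimage_mono hV).trans hle)).comp hb
  have : (fun r : Γ(X, V) => r • res ((Scheme.Modules.pushforward j).obj L) hV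
      (toPFwd j L _ (res L hle g))) =
      fun r : Γ(X, V) =>
        toPFwd j L V (j.app V r • res L ((j.preimage_mono hV).trans hle) g) := funext fun r => by
    show toPFwd j L V (pFwd (r • _)) = _
    rw [pFwd_smul, pFwd_res]
    show toPFwd j L V (j.app V r • res L _ (res L hle g)) = _
    rw [res_res]
  rw [this]
  exact hc

/-- A rigidification of a sheaf on an open piece, seen on the whole. -/
def pushRig {σ' : T' ⟶ X'} {j : X' ⟶ X} {f : T' ⟶ T} [IsOpenImmersion f] {σ : T ⟶ X}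
    (e : σ' ≫ j = f ≫ σ) {L : X'.Modules} (α : RigOn σ' L ⊤) {Ω : X.Opens}
    (hΩ : σ ⁻¹ᵁ Ω ≤ f.opensRange) [IsOpenImmersion j] :
    RigOn σ ((Scheme.Modules.pushforward j).obj L) Ω where
  a V hV x := unApp f ((σ.preimage_mono hV).trans hΩ)
    (resO T' (app_square e V).choose (α.a (j ⁻¹ᵁ V) le_top (pFwd x)))
  map_add V hV x y := by
    apply (app_bijective f ((σ.preimage_mono hV).trans hΩ)).1
    rw [map_add (f.app (σ ⁻¹ᵁ V)).hom, app_unApp, app_unApp, app_unApp,
      show pFwd (x + y) = pFwd x + pFwd y from rfl, α.map_add]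
    exact map_add _ _ _
  map_smul V hV r x := by
    apply (app_bijective f ((σ.preimage_mono hV).trans hΩ)).1
    rw [map_mul (f.app (σ ⁻¹ᵁ V)).hom, app_unApp, app_unApp, pFwd_smul, α.map_smul, resO_mul,
      (app_square e V).choose_spec]
  map_res V W hV h x := by
    apply (app_bijective f ((σ.preimage_mono (h.trans hV)).trans hΩ)).1
    rw [resO_app f (σ.preimage_mono h), app_unApp, app_unApp, pFwd_res,
      ← α.map_res _ _ le_top (j.preimage_mono h), resO_resO, resO_resO]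
  locSurj w hw := by
    obtain ⟨w', rfl⟩ := hΩ (show w ∈ σ ⁻¹ᵁ Ω from hw)
    have hpt : σ.base (f.base w') = j.base (σ'.base w') := by
      rw [← Scheme.Hom.comp_apply, ← Scheme.Hom.comp_apply, e]
    obtain ⟨V', hV', x, hx⟩ := α.locSurj w' trivial
    have hle : j ⁻¹ᵁ (j ''ᵁ V' ⊓ Ω) ≤ V' :=
      (j.preimage_mono inf_le_left).trans (j.preimage_image_eq V').le
    have hmem : σ.base (f.base w') ∈ j ''ᵁ V' ⊓ Ω :=
      ⟨⟨σ'.base w', T'.basicOpen_le _ hx, hpt.symm⟩, hw⟩
    refine ⟨j ''ᵁ V' ⊓ Ω, inf_le_right, toPFwd j L _ (res L hle x), ?_⟩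
    show w' ∈ f ⁻¹ᵁ T.basicOpen _
    rw [Scheme.preimage_basicOpen, app_unApp]
    show w' ∈ T'.basicOpen (resO T' _ (α.a _ le_top (res L hle x)))
    rw [← α.map_res V' _ hV' hle x, resO_resO, basicOpen_resO]
    exact ⟨hmem, hx⟩

/-- The pushforward restricted along a map through the piece is the pullback. -/
def restrictPush (j : X' ⟶ X) [IsOpenImmersion j] {Z : Scheme.{u}} (b : Z ⟶ X') (j' : Z ⟶ X)
    [IsOpenImmersion j'] (h : b ≫ j = j') (L : X'.Modules) :
    ((Scheme.Modules.pushforward j).obj L).restrict j' ≅ (Scheme.Modules.pullback b).obj L :=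
  (Scheme.Modules.restrictFunctorIsoPullback j').app _ ≪≫
    (Scheme.Modules.pullbackCongr h.symm).app _ ≪≫
      ((Scheme.Modules.pullbackComp b j).app _).symm ≪≫
        (Scheme.Modules.pullback b).mapIso
          (((Scheme.Modules.restrictFunctorIsoPullback j).app _).symm ≪≫
            (Scheme.Modules.restrictFunctorAdjCounitIso j).app L)

/-! ### Scalars -/

/-- An automorphism of a locally free rank one sheaf is multiplication by a function. -/
theorem SecIso.exists_scalar {G : X.Modules} {Ω : X.Opens} (hG : LineLike G Ω)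
    (a : SecIso G G Ω) : ∃ r : Γ(X, Ω), ∀ V hV x, a.f V hV x = resO X hV r • x := by
  have key : ∀ p : {p : X // p ∈ Ω}, ∃ (U : X.Opens) (hU : U ≤ Ω) (r : Γ(X, U)), p.1 ∈ U ∧
      ∀ V, ∀ h : V ≤ U, ∀ x, a.f V (h.trans hU) x = resO X h r • x := by
    rintro ⟨p, hp⟩
    obtain ⟨U, hU, g, hpU, hg⟩ := hG p hp
    obtain ⟨r, hr⟩ := (hg U le_rfl).2 (a.f U hU g)
    dsimp only at hr
    rw [res_self] at hr
    refine ⟨U, hU, r, hpU, fun V h x => ?_⟩
    obtain ⟨c, rfl⟩ := (hg V h).2 x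
    dsimp only
    rw [a.map_smul, ← a.map_res U V hU h g, ← hr, res_smul, smul_comm]
  choose U hU r hpU hr using key
  obtain ⟨s, hs, -⟩ := existsUnique_glueFun U hU (fun p hp => ⟨⟨p, hp⟩, hpU ⟨p, hp⟩⟩) r
    fun i j W hi hj => eqO_of_locally fun q hq => by
      obtain ⟨O, -, g, hqO, hg⟩ := hG q (hU i (hi hq))
      refine ⟨W ⊓ O, inf_le_left, ⟨hq, hqO⟩, ?_⟩
      apply (hg (W ⊓ O) inf_le_right).1
      show resO X _ (resO X hi (r i)) • _ = resO X _ (resO X hj (r j)) • _
      rw [resO_resO, resO_resO, ← hr i, ← hr j]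
  refine ⟨s, fun V hV x => eq_of_locally _ fun p hp => ?_⟩
  let i : {p : X // p ∈ Ω} := ⟨p, hV hp⟩
  refine ⟨V ⊓ U i, inf_le_left, ⟨hp, hpU i⟩, ?_⟩
  rw [a.map_res _ _ _ inf_le_left, res_smul, resO_resO, hr i _ inf_le_right,
    show resO X (inf_le_right : V ⊓ U i ≤ U i) (r i) = resO X (inf_le_left.trans hV) s by
      rw [← hs i, resO_resO]]

theorem eq_one_of_smul_eq {G : X.Modules} {Ω : X.Opens} (hG : LineLike G Ω) {r : Γ(X, Ω)}
    (h : ∀ V, ∀ hV : V ≤ Ω, ∀ x : Γ(G, V), resO X hV r • x = x) : r = 1 :=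
  eqO_of_locally fun p hp => by
    obtain ⟨U, hU, g, hpU, hg⟩ := hG p hp
    refine ⟨U, hU, hpU, (hg U le_rfl).1 ?_⟩
    show resO X hU r • _ = resO X hU 1 • _
    rw [resO_one, one_smul, h]

theorem Preserves.trans {σ : T ⟶ X} {G G' G'' : X.Modules} {Ω : X.Opens} {φ : SecIso G G' Ω}
    {ψ : SecIso G' G'' Ω} {α : RigOn σ G Ω} {β : RigOn σ G' Ω} {γ : RigOn σ G'' Ω}
    (h : Preserves φ α β) (h' : Preserves ψ β γ) : Preserves (φ.trans ψ) α γ :=
  fun V hV x => (h' V hV _).trans (h V hV x)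

theorem Preserves.symm {σ : T ⟶ X} {G G' : X.Modules} {Ω : X.Opens} {φ : SecIso G G' Ω}
    {α : RigOn σ G Ω} {β : RigOn σ G' Ω} (h : Preserves φ α β) : Preserves φ.symm β α :=
  fun V hV y => ((h V hV ((φ.f V hV).symm y)).symm).trans (by rw [Equiv.apply_symm_apply])

/-- Multiplication by a unit. -/
def smulIso (M : X.Modules) {r s : Γ(X, ⊤)} (h : r * s = 1) : M ≅ M where
  hom := smulHom M r
  inv := smulHom M s
  hom_inv_id := Scheme.Modules.hom_ext _ _ fun U => by
    ext x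
    show resO X (le_top : U ≤ ⊤) s • resO X (le_top : U ≤ ⊤) r • x = x
    rw [smul_smul, ← resO_mul, mul_comm, h, resO_one, one_smul]
  inv_hom_id := Scheme.Modules.hom_ext _ _ fun U => by
    ext x
    show resO X (le_top : U ≤ ⊤) r • resO X (le_top : U ≤ ⊤) s • x = x
    rw [smul_smul, ← resO_mul, h, resO_one, one_smul]

/-- Multiplication by a function equal to one along the section is trivial along it. -/
theorem pullback_smulHom_eq_id (σ : T ⟶ X) (r : Γ(X, ⊤))
    (h : σ.app ⊤ r = 1) (γ : (Scheme.Modules.pullback σ).obj (oneMod X) ≅ oneMod T) :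
    (Scheme.Modules.pullback σ).map (smulHom (oneMod X) r) = 𝟙 _ := by
  refine pullback_map_eq_id (γ := γ) _ (isLocSurj_transpose γ) _ ?_
  refine Scheme.Modules.hom_ext _ _ fun V => ?_
  ext x
  show rigVal ((Scheme.Modules.pullbackPushforwardAdjunction σ).homEquiv _ _ γ.hom) V
      (resO X (le_top : V ≤ ⊤) r • x) =
    rigVal ((Scheme.Modules.pullbackPushforwardAdjunction σ).homEquiv _ _ γ.hom) V x
  rw [rigVal_smul]
  rw [resO_app σ, h, resO_one, one_mul]

end Glue

end FLTAgent.Jac
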