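import Fermat.Agent.Jac.Glue.Pullback
import Fermat.Agent.Jac.Glue.Push

/-!
# S25: descent for rigidified bundles
-/

set_option autoImplicit false
set_option linter.unusedVariables false

universe u

open CategoryTheory CategoryTheory.Limits AlgebraicGeometry AlgebraicGeometry.RelPicard
  NeronModelInfra

noncomputable section

namespace FLTAgent.Jac

variable {R : Type u} [CommRing R] {C : Scheme.{u}} {c : C ⟶ Spec (CommRingCat.of R)}
  {ε : SchemeHomOver (𝟙 (Spec (CommRingCat.of R))) c}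

namespace Glue

variable {T T' : Scheme.{u}} {t : T ⟶ Spec (CommRingCat.of R)}
  {t' : T' ⟶ Spec (CommRingCat.of R)}

theorem rigSection_snd : rigSection c t ε ≫ pullback.snd c t = 𝟙 T :=
  pullback.lift_snd _ _ _

theorem preimage_rigSection (W : T.Opens) :
    rigSection c t ε ⁻¹ᵁ pullback.snd c t ⁻¹ᵁ W = W := by
  rw [← Scheme.Hom.comp_preimage, rigSection_snd, Scheme.Hom.id_preimage]

theorem isPullback_baseChangeSnd (ψ : SchemeHomOver t' t) :
    IsPullback (baseChangeSnd c ψ) (pullback.snd c t') (pullback.snd c t) ψ.1 := by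
  refine IsPullback.of_right ?_ (pullback.lift_snd _ _ _) (IsPullback.of_hasPullback c t)
  rw [show baseChangeSnd c ψ ≫ pullback.fst c t = pullback.fst c t' from
    (pullback.lift_fst _ _ _).trans (Category.comp_id _), ψ.2]
  exact IsPullback.of_hasPullback c t'

theorem isOpenImmersion_baseChangeSnd (ψ : SchemeHomOver t' t) [IsOpenImmersion ψ.1] :
    IsOpenImmersion (baseChangeSnd c ψ) :=
  MorphismProperty.of_isPullback (P := @IsOpenImmersion) (isPullback_baseChangeSnd ψ).flip ‹_›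

theorem mem_range_baseChangeSnd (ψ : SchemeHomOver t' t) {p : (pullback c t : Scheme.{u})}
    {w : T'} (h : (pullback.snd c t).base p = ψ.1.base w) :
    ∃ q, (baseChangeSnd c ψ).base q = p := by
  obtain ⟨z, hz, -⟩ := Scheme.Pullback.exists_preimage_pullback p w h
  refine ⟨(isPullback_baseChangeSnd ψ).isoPullback.inv.base z, ?_⟩
  rw [← Scheme.Hom.comp_apply, IsPullback.isoPullback_inv_fst, hz]

variable (c ε) in
/-- The rigidification of a bundle on sections. -/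
def bundleRig (M : RigidifiedLineBundle c ε t) : RigOn (rigSection c t ε) M.L ⊤ :=
  rigOfHom ((Scheme.Modules.pullbackPushforwardAdjunction (rigSection c t ε)).homEquiv _ _
    M.rigidified.some.hom) (isLocSurj_transpose M.rigidified.some)

/-- An automorphism over an open of the base respecting a rigidification is trivial. -/
theorem eq_id_of_preserves (hR : RigidAut c ε) (t : T ⟶ Spec (CommRingCat.of R)) (W : T.Opens)
    {G : (pullback c t).Modules} (α : RigOn (rigSection c t ε) G (pullback.snd c t ⁻¹ᵁ W))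
    (hG : LineLike G (pullback.snd c t ⁻¹ᵁ W))
    (a : SecIso G G (pullback.snd c t ⁻¹ᵁ W)) (ha : Preserves a α α) :
    ∀ V hV x, a.f V hV x = x := by
  obtain ⟨r, hr⟩ := a.exists_scalar hG
  obtain ⟨s, hs⟩ := a.symm.exists_scalar hG
  have hrs : r * s = 1 := eq_one_of_smul_eq hG fun V hV x => by
    rw [resO_mul, mul_smul, ← hs V hV x, ← hr]
    exact (a.f V hV).apply_symm_apply x
  have hfix : (rigSection c t ε).app _ r = 1 := RigOn.eq_one_of_fix α fun V hV x => by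
    rw [← resO_app (rigSection c t ε) hV, ← α.map_smul, ← hr, ha]
  -- transfer to the base change to `W`
  let ψ : SchemeHomOver (W.ι ≫ t) t := overMap t W.ι
  haveI : IsOpenImmersion ψ.1 := inferInstanceAs (IsOpenImmersion W.ι)
  haveI := isOpenImmersion_baseChangeSnd (c := c) ψ
  have hj : pullback.snd c t ⁻¹ᵁ W ≤ (baseChangeSnd c ψ).opensRange := fun p hp =>
    mem_range_baseChangeSnd ψ (w := ⟨(pullback.snd c t).base p, hp⟩) rfl
  have htop : (⊤ : (pullback c (W.ι ≫ t) : Scheme.{u}).Opens) ≤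
      baseChangeSnd c ψ ⁻¹ᵁ pullback.snd c t ⁻¹ᵁ W := fun q _ => by
    show (pullback.snd c t).base ((baseChangeSnd c ψ).base q) ∈ W
    rw [← Scheme.Hom.comp_apply, (isPullback_baseChangeSnd ψ).w, Scheme.Hom.comp_apply]
    exact ((pullback.snd c (W.ι ≫ t)).base q).2
  let φ : Γ(pullback c t, pullback.snd c t ⁻¹ᵁ W) →+* Γ(pullback c (W.ι ≫ t), ⊤) :=
    ((baseChangeSnd c ψ).appLE _ ⊤ htop).hom
  have hrs' : φ r * φ s = 1 := by rw [← map_mul, hrs, map_one]
  have hsec : (rigSection c (W.ι ≫ t) ε).app ⊤ (φ r) = 1 := by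
    have e0 : (⊤ : W.toScheme.Opens) ≤ W.ι ⁻¹ᵁ rigSection c t ε ⁻¹ᵁ pullback.snd c t ⁻¹ᵁ W :=
      fun w _ => by
        rw [preimage_rigSection]
        exact w.2
    have key : (baseChangeSnd c ψ).appLE (pullback.snd c t ⁻¹ᵁ W) ⊤ htop ≫
        (rigSection c (W.ι ≫ t) ε).app ⊤ =
        (rigSection c t ε).app (pullback.snd c t ⁻¹ᵁ W) ≫ W.ι.appLE _ ⊤ e0 := by
      rw [← Scheme.Hom.appLE_eq_app, ← Scheme.Hom.appLE_eq_app, Scheme.Hom.appLE_comp_appLE,
        Scheme.Hom.appLE_comp_appLE]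
      congr 1
      exact rigSection_baseChangeSnd c ε ψ
    refine (ConcreteCategory.congr_hom key r).trans ?_
    show W.ι.appLE _ ⊤ e0 ((rigSection c t ε).app _ r) = 1
    rw [hfix, map_one]
  have hone : φ r = 1 := by
    have h1 := hR (W.ι ≫ t) (RigidifiedLineBundle.unit (W.ι ≫ t))
      (smulIso (oneMod (pullback c (W.ι ≫ t))) hrs')
      (pullback_smulHom_eq_id _ (φ r) hsec (RigidifiedLineBundle.unit (W.ι ≫ t)).rigidified.some)
    have h2 : (smulHom (oneMod (pullback c (W.ι ≫ t))) (φ r)).app ⊤ (ofFn 1) =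
        (𝟙 (oneMod (pullback c (W.ι ≫ t))) : oneMod _ ⟶ oneMod _).app ⊤ (ofFn 1) :=
      congrArg (fun f : oneMod (pullback c (W.ι ≫ t)) ⟶ oneMod _ => f.app ⊤ (ofFn 1)) h1
    rw [smulHom_app, resO_self, smul_ofFn, mul_one] at h2
    exact h2
  have hr1 : r = 1 := by
    refine (app_bijective (baseChangeSnd c ψ) hj).1 ?_
    rw [map_one]
    have h3 := congrArg (resO (pullback c (W.ι ≫ t)) (le_top :
      baseChangeSnd c ψ ⁻¹ᵁ pullback.snd c t ⁻¹ᵁ W ≤ ⊤)) hone
    rw [resO_one] at h3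
    rw [← resO_self le_rfl ((baseChangeSnd c ψ).app _ r)]
    exact ((resO_resO (htop) le_top _).symm).trans h3
  intro V hV x
  rw [hr, hr1, resO_one, one_smul]

/-- Two isomorphisms over an open of the base respecting rigidifications agree. -/
theorem eq_of_preserves (hR : RigidAut c ε) (t : T ⟶ Spec (CommRingCat.of R)) (W : T.Opens)
    {G G' : (pullback c t).Modules} (α : RigOn (rigSection c t ε) G (pullback.snd c t ⁻¹ᵁ W))
    (β : RigOn (rigSection c t ε) G' (pullback.snd c t ⁻¹ᵁ W))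
    (hG : LineLike G (pullback.snd c t ⁻¹ᵁ W))
    (φ φ' : SecIso G G' (pullback.snd c t ⁻¹ᵁ W)) (h : Preserves φ α β) (h' : Preserves φ' α β)
    (V : (pullback c t : Scheme.{u}).Opens) (hV : V ≤ pullback.snd c t ⁻¹ᵁ W) (x : Γ(G, V)) :
    φ.f V hV x = φ'.f V hV x := by
  have := eq_id_of_preserves hR t W α hG (φ.trans φ'.symm) (h.trans h'.symm) V hV x
  exact (Equiv.symm_apply_eq _).1 this

end Glue

open Glue

/-- Isomorphism of rigidified bundles is local on the test scheme. -/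
theorem iso_of_local (hR : RigidAut c ε) {T : Scheme.{u}} (t : T ⟶ Spec (CommRingCat.of R))
    (𝒰 : Scheme.OpenCover.{u} T) (M M' : RigidifiedLineBundle c ε t)
    (h : ∀ i, Nonempty ((M.pullbackAlong (overMap t (𝒰.f i))).L ≅
      (M'.pullbackAlong (overMap t (𝒰.f i))).L)) :
    Nonempty (M.L ≅ M'.L) := by
  let Tᵢ : 𝒰.I₀ → T.Opens := fun i => (𝒰.f i).opensRange
  have hG := lineLike_of_isInvertible M.isInvertible ⊤
  have key : ∀ i, ∃ ψ : SecIso M.L M'.L (pullback.snd c t ⁻¹ᵁ Tᵢ i),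
      Preserves ψ ((bundleRig c ε M).mono le_top) ((bundleRig c ε M').mono le_top) := fun i => by
    haveI : IsOpenImmersion (overMap t (𝒰.f i)).1 := inferInstanceAs (IsOpenImmersion (𝒰.f i))
    haveI := isOpenImmersion_baseChangeSnd (c := c) (overMap t (𝒰.f i))
    have hle : pullback.snd c t ⁻¹ᵁ Tᵢ i ≤
        (baseChangeSnd c (overMap t (𝒰.f i))).opensRange := fun p hp => by
      obtain ⟨w, hw⟩ := hp
      exact mem_range_baseChangeSnd _ hw.symm
    refine exists_preserves rigSection_snd (Tᵢ i) _ _ (hG.mono le_top)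
      ((secIsoOfIso (baseChangeSnd c (overMap t (𝒰.f i)))
        ((Scheme.Modules.restrictFunctorIsoPullback _).app M.L ≪≫ (h i).some ≪≫
          ((Scheme.Modules.restrictFunctorIsoPullback _).app M'.L).symm)).mono hle)
  choose ψ hψ using key
  obtain ⟨e, -⟩ := exists_secIso_of_local (fun i => pullback.snd c t ⁻¹ᵁ Tᵢ i)
    (fun p => ⟨𝒰.idx ((pullback.snd c t).base p), 𝒰.covers _⟩) ψ (fun i j V hi hj x => by
      have hV : V ≤ pullback.snd c t ⁻¹ᵁ (Tᵢ i ⊓ Tᵢ j) := fun p hp => ⟨hi hp, hj hp⟩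
      exact eq_of_preserves hR t (Tᵢ i ⊓ Tᵢ j) ((bundleRig c ε M).mono le_top)
        ((bundleRig c ε M').mono le_top) (hG.mono le_top)
        ((ψ i).mono fun p hp => hp.1) ((ψ j).mono fun p hp => hp.2)
        (fun V hV x => hψ i V _ x) (fun V hV x => hψ j V _ x) V hV x)
  exact nonempty_iso_of_secIso e

/-- Rigidified bundles given on an open cover, isomorphic on overlaps, glue. -/
theorem exists_glue (hR : RigidAut c ε) {T : Scheme.{u}} (t : T ⟶ Spec (CommRingCat.of R))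
    (𝒰 : Scheme.OpenCover.{u} T)
    (M : ∀ i, RigidifiedLineBundle c ε (𝒰.f i ≫ t))
    (h : ∀ (i j) {W : Scheme.{u}} (a : W ⟶ 𝒰.X i) (b : W ⟶ 𝒰.X j) (hab : a ≫ 𝒰.f i = b ≫ 𝒰.f j)
      [IsOpenImmersion a] [IsOpenImmersion b],
      Nonempty (((M i).pullbackAlong (⟨a, rfl⟩ : SchemeHomOver (a ≫ 𝒰.f i ≫ t) (𝒰.f i ≫ t))).L ≅
        ((M j).pullbackAlong (⟨b, by rw [← Category.assoc, ← hab, Category.assoc]⟩ :
          SchemeHomOver (a ≫ 𝒰.f i ≫ t) (𝒰.f j ≫ t))).L)) :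
    ∃ N : RigidifiedLineBundle c ε t,
      ∀ i, Nonempty ((N.pullbackAlong (overMap t (𝒰.f i))).L ≅ (M i).L) := by
  haveI hopen : ∀ i, IsOpenImmersion (overMap t (𝒰.f i)).1 := fun i =>
    inferInstanceAs (IsOpenImmersion (𝒰.f i))
  haveI hjopen : ∀ i, IsOpenImmersion (baseChangeSnd c (overMap t (𝒰.f i))) := fun i =>
    isOpenImmersion_baseChangeSnd _
  let Tᵢ : 𝒰.I₀ → T.Opens := fun i => (𝒰.f i).opensRange
  let Ω : 𝒰.I₀ → (pullback c t : Scheme.{u}).Opens := fun i => pullback.snd c t ⁻¹ᵁ Tᵢ i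
  let G : 𝒰.I₀ → (pullback c t).Modules := fun i =>
    (Scheme.Modules.pushforward (baseChangeSnd c (overMap t (𝒰.f i)))).obj (M i).L
  have hΩ : ∀ i, Ω i ≤ (baseChangeSnd c (overMap t (𝒰.f i))).opensRange := fun i p hp => by
    obtain ⟨w, hw⟩ := hp
    exact mem_range_baseChangeSnd _ hw.symm
  have hΩ' : ∀ i, (baseChangeSnd c (overMap t (𝒰.f i))).opensRange ≤ Ω i := fun i p hp => by
    obtain ⟨q, rfl⟩ := hp
    refine ⟨(pullback.snd c (𝒰.f i ≫ t)).base q, ?_⟩
    rw [← Scheme.Hom.comp_apply, ← Scheme.Hom.comp_apply,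
      (isPullback_baseChangeSnd (overMap t (𝒰.f i))).w]
    rfl
  have hG : ∀ i, LineLike (G i) (Ω i) := fun i =>
    (lineLike_of_isInvertible (M i).isInvertible ⊤).pushforward _ (hΩ i)
  let α : ∀ i, RigOn (rigSection c t ε) (G i) (Ω i) := fun i =>
    pushRig (f := 𝒰.f i) (rigSection_baseChangeSnd c ε (overMap t (𝒰.f i))) (bundleRig c ε (M i))
      (preimage_rigSection (Tᵢ i)).le
  have hpre : ∀ i j, ∃ ψ : SecIso (G i) (G j) (pullback.snd c t ⁻¹ᵁ (Tᵢ i ⊓ Tᵢ j)),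
      Preserves ψ ((α i).mono fun p hp => hp.1) ((α j).mono fun p hp => hp.2) := fun i j => by
    let a := pullback.fst (𝒰.f i) (𝒰.f j)
    let b := pullback.snd (𝒰.f i) (𝒰.f j)
    have hab : a ≫ 𝒰.f i = b ≫ 𝒰.f j := pullback.condition
    haveI : IsOpenImmersion a := inferInstance
    haveI : IsOpenImmersion b := inferInstance
    let ξ : SchemeHomOver (a ≫ 𝒰.f i ≫ t) t := ⟨a ≫ 𝒰.f i, Category.assoc _ _ _⟩
    haveI : IsOpenImmersion ξ.1 := inferInstanceAs (IsOpenImmersion (a ≫ 𝒰.f i))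
    haveI := isOpenImmersion_baseChangeSnd (c := c) ξ
    let ea : SchemeHomOver (a ≫ 𝒰.f i ≫ t) (𝒰.f i ≫ t) := ⟨a, rfl⟩
    let eb : SchemeHomOver (a ≫ 𝒰.f i ≫ t) (𝒰.f j ≫ t) :=
      ⟨b, by rw [← Category.assoc, ← hab, Category.assoc]⟩
    have ha : baseChangeSnd c ea ≫ baseChangeSnd c (overMap t (𝒰.f i)) = baseChangeSnd c ξ := by
      rw [baseChangeSnd_comp]
      exact congrArg (baseChangeSnd c) (Subtype.ext rfl)
    have hb : baseChangeSnd c eb ≫ baseChangeSnd c (overMap t (𝒰.f j)) = baseChangeSnd c ξ := by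
      rw [baseChangeSnd_comp]
      exact congrArg (baseChangeSnd c) (Subtype.ext hab.symm)
    have hle : pullback.snd c t ⁻¹ᵁ (Tᵢ i ⊓ Tᵢ j) ≤ (baseChangeSnd c ξ).opensRange := fun p hp => by
      obtain ⟨⟨wi, hwi⟩, ⟨wj, hwj⟩⟩ := hp
      obtain ⟨z, hz, -⟩ := Scheme.Pullback.exists_preimage_pullback wi wj (hwi.trans hwj.symm)
      refine mem_range_baseChangeSnd ξ (w := z) ?_
      rw [show ξ.1 = a ≫ 𝒰.f i from rfl, Scheme.Hom.comp_apply, hz]
      exact hwi.symm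
    exact exists_preserves rigSection_snd (Tᵢ i ⊓ Tᵢ j) _ _ ((hG i).mono fun p hp => hp.1)
      ((secIsoOfIso (baseChangeSnd c ξ) (restrictPush _ _ _ ha (M i).L ≪≫ (h i j a b hab).some ≪≫
        (restrictPush _ _ _ hb (M j).L).symm)).mono hle)
  choose ψ hψ using hpre
  let D : ModData (pullback c t) :=
    { ι := 𝒰.I₀
      Ω := Ω
      G := G
      φ := fun i j => (ψ i j).mono fun p hp => ⟨hp.1, hp.2⟩
      cocycle := fun i j k V hi hj hk x => by
        have hV : V ≤ pullback.snd c t ⁻¹ᵁ (Tᵢ i ⊓ Tᵢ j ⊓ Tᵢ k) :=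
          fun p hp => ⟨⟨hi hp, hj hp⟩, hk hp⟩
        exact eq_of_preserves hR t (Tᵢ i ⊓ Tᵢ j ⊓ Tᵢ k) ((α i).mono fun p hp => hp.1.1)
          ((α k).mono fun p hp => hp.2) ((hG i).mono fun p hp => hp.1.1)
          (((ψ i j).mono (Ω' := pullback.snd c t ⁻¹ᵁ (Tᵢ i ⊓ Tᵢ j ⊓ Tᵢ k)) fun p hp => hp.1).trans
            ((ψ j k).mono fun p hp => ⟨hp.1.2, hp.2⟩))
          ((ψ i k).mono fun p hp => ⟨hp.1.1, hp.2⟩)
          (fun V hV x => (hψ j k V _ _).trans (hψ i j V _ x)) (fun V hV x => hψ i k V _ x) V hV x }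
  have hcov : ∀ p : (pullback c t : Scheme.{u}), ∃ i, p ∈ Ω i := fun p =>
    ⟨𝒰.idx ((pullback.snd c t).base p), 𝒰.covers _⟩
  have hinv : Scheme.Modules.IsInvertible D.glued := ⟨fun p => by
    obtain ⟨i, hi⟩ := hcov p
    obtain ⟨q, rfl⟩ := hΩ i hi
    obtain ⟨U, hqU, ⟨eU⟩⟩ := (M i).isInvertible.exists_trivialization q
    let j := baseChangeSnd c (overMap t (𝒰.f i))
    refine ⟨j ''ᵁ U, ⟨q, hqU, rfl⟩, ⟨?_⟩⟩
    have hle : (j ''ᵁ U).ι.opensRange ≤ D.Ω i := by
      rw [Scheme.Opens.opensRange_ι]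
      exact (j.image_le_opensRange U).trans (hΩ' i)
    exact ((Scheme.Modules.restrictFunctorIsoPullback _).app D.glued).symm ≪≫
      isoOfSecIso (j ''ᵁ U).ι hle (D.proj i) ≪≫
      restrictPush j ((j.isoImage U).inv ≫ U.ι) _
        (by rw [Category.assoc]; exact j.isoImage_inv_ι U) (M i).L ≪≫
      ((Scheme.Modules.pullbackComp _ _).app (M i).L).symm ≪≫
      (Scheme.Modules.pullback (j.isoImage U).inv).mapIso eU ≪≫
      Scheme.Modules.pullbackUnitIso _⟩
  obtain ⟨a, ha⟩ := D.exists_rig (σ := rigSection c t ε)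
    (fun w => ⟨𝒰.idx w, by
      show (pullback.snd c t).base ((rigSection c t ε).base w) ∈ Tᵢ (𝒰.idx w)
      rw [← Scheme.Hom.comp_apply, rigSection_snd]
      exact 𝒰.covers w⟩) α (fun i j V hV x => hψ i j V _ x)
  refine ⟨⟨D.glued, hinv, nonempty_iso_of_isLocSurj hinv a ha⟩, fun i => ⟨?_⟩⟩
  exact ((Scheme.Modules.restrictFunctorIsoPullback _).app D.glued).symm ≪≫
    isoOfSecIso (baseChangeSnd c (overMap t (𝒰.f i))) (hΩ' i) (D.proj i) ≪≫
      (Scheme.Modules.restrictFunctorAdjCounitIso _).app (M i).L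

end FLTAgent.Jac
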