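import Fermat.Agent.Jac.Glue.Rig

/-!
# S25: gluing sheaves of modules given on sections
-/

set_option autoImplicit false
set_option linter.unusedVariables false

universe u

open CategoryTheory AlgebraicGeometry TopologicalSpace Opposite

noncomputable section

namespace FLTAgent.Jac

namespace Glue

variable {X T : Scheme.{u}}

/-! ### Gluing isomorphisms -/

/-- Compatible local isomorphisms on sections glue. -/
theorem exists_secIso_of_local {G G' : X.Modules} {ι : Type u} (Ω : ι → X.Opens)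
    (hcov : ∀ p : X, ∃ i, p ∈ Ω i) (φ : ∀ i, SecIso G G' (Ω i))
    (hφ : ∀ i j V (hi : V ≤ Ω i) (hj : V ≤ Ω j) (x : Γ(G, V)),
      (φ i).f V hi x = (φ j).f V hj x) :
    ∃ e : SecIso G G' ⊤, ∀ i V (hi : V ≤ Ω i) x, e.f V le_top x = (φ i).f V hi x := by
  have key : ∀ (A B : X.Modules) (ψ : ∀ i, SecIso A B (Ω i)),
      (∀ i j V (hi : V ≤ Ω i) (hj : V ≤ Ω j) (x : Γ(A, V)), (ψ i).f V hi x = (ψ j).f V hj x) →
      ∀ (V : X.Opens) (x : Γ(A, V)), ∃! y : Γ(B, V), ∀ i,
        res B inf_le_left y = (ψ i).f (V ⊓ Ω i) inf_le_right (res A inf_le_left x) := by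
    intro A B ψ hψ V x
    refine existsUnique_glueSec B (fun i => V ⊓ Ω i) (fun i => inf_le_left)
      (fun p hp => ⟨(hcov p).choose, hp, (hcov p).choose_spec⟩) _ fun i j W hi hj => ?_
    rw [(ψ i).map_res _ _ _ hi, (ψ j).map_res _ _ _ hj, res_res, res_res]
    exact hψ i j W _ _ _
  have hφ' : ∀ i j V (hi : V ≤ Ω i) (hj : V ≤ Ω j) (y : Γ(G', V)),
      (φ i).symm.f V hi y = (φ j).symm.f V hj y := fun i j V hi hj y => by
    show ((φ i).f V hi).symm y = ((φ j).f V hj).symm y
    rw [Equiv.symm_apply_eq, hφ i j V hi hj, Equiv.apply_symm_apply]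
  choose f hf hfu using key G G' φ hφ
  choose g hg hgu using key G' G (fun i => (φ i).symm) hφ'
  have hgf : ∀ V x, g V (f V x) = x := fun V x => (hgu V (f V x) x fun i => by
    rw [hf V x i]
    exact (((φ i).f _ _).symm_apply_apply _).symm).symm
  have hfg : ∀ V y, f V (g V y) = y := fun V y => (hfu V (g V y) y fun i => by
    rw [hg V y i]
    exact (((φ i).f _ _).apply_symm_apply _).symm).symm
  refine ⟨⟨fun V _ => ⟨f V, g V, hgf V, hfg V⟩, fun V _ x y => ?_, fun V _ r x => ?_,
    fun V W _ h x => ?_⟩, fun i V hi x => ?_⟩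
  · exact (hfu V (x + y) (f V x + f V y) fun i => by
      rw [res_add, res_add, hf, hf, (φ i).map_add]).symm
  · exact (hfu V (r • x) (r • f V x) fun i => by
      rw [res_smul, res_smul, hf, (φ i).map_smul]).symm
  · exact hfu W (res G h x) (res G' h (f V x)) fun i => by
      rw [res_res, res_res]
      have e := congrArg (res G' (inf_le_inf_right (Ω i) h)) (hf V x i)
      rw [(φ i).map_res _ _ _ (inf_le_inf_right (Ω i) h), res_res, res_res] at e
      exact e
  · show f V x = _
    exact (hfu V x ((φ i).f V hi x) fun k => by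
      rw [(φ i).map_res _ _ _ inf_le_left]
      exact hφ i k _ _ _ _).symm

/-- An isomorphism on all sections gives an isomorphism. -/
theorem nonempty_iso_of_secIso {G G' : X.Modules} (e : SecIso G G' ⊤) : Nonempty (G ≅ G') :=
  ⟨(Scheme.Modules.restrictFunctorId.app G).symm ≪≫ isoOfSecIso (𝟙 X) le_top e ≪≫
    Scheme.Modules.restrictFunctorId.app G'⟩

/-! ### Gluing modules -/

/-- Gluing data on sections. -/
structure ModData (X : Scheme.{u}) : Type (u + 1) where
  ι : Type u
  Ω : ι → X.Opens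
  G : ι → X.Modules
  φ : ∀ i j, SecIso (G i) (G j) (Ω i ⊓ Ω j)
  cocycle : ∀ i j k V (hi : V ≤ Ω i) (hj : V ≤ Ω j) (hk : V ≤ Ω k) (x : Γ(G i, V)),
    (φ j k).f V (le_inf hj hk) ((φ i j).f V (le_inf hi hj) x) = (φ i k).f V (le_inf hi hk) x

namespace ModData

variable (D : ModData X)

theorem φ_self (i : D.ι) (V : X.Opens) (hV : V ≤ D.Ω i ⊓ D.Ω i) (x : Γ(D.G i, V)) :
    (D.φ i i).f V hV x = x := by
  have h := D.cocycle i i i V (hV.trans inf_le_left) (hV.trans inf_le_left) (hV.trans inf_le_left) x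
  exact ((D.φ i i).f V _).injective h

theorem φ_symm (i j : D.ι) (V : X.Opens) (hi : V ≤ D.Ω i) (hj : V ≤ D.Ω j) (x : Γ(D.G i, V)) :
    (D.φ j i).f V (le_inf hj hi) ((D.φ i j).f V (le_inf hi hj) x) = x := by
  rw [D.cocycle i j i V hi hj hi x, D.φ_self]

/-- Families of sections agreeing on the overlaps. -/
def secs (V : X.Opens) : AddSubgroup (∀ i, Γ(D.G i, V ⊓ D.Ω i)) where
  carrier := {s | ∀ i j W (hi : W ≤ V ⊓ D.Ω i) (hj : W ≤ V ⊓ D.Ω j),
    (D.φ i j).f W (le_inf (hi.trans inf_le_right) (hj.trans inf_le_right)) (res (D.G i) hi (s i)) =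
      res (D.G j) hj (s j)}
  add_mem' := fun {s s'} hs hs' i j W hi hj => by
    show (D.φ i j).f W _ (res (D.G i) hi (s i + s' i)) = res (D.G j) hj (s j + s' j)
    rw [res_add, res_add, SecIso.map_add, hs i j W hi hj, hs' i j W hi hj]
  zero_mem' := fun i j W hi hj => by
    show (D.φ i j).f W _ (res (D.G i) hi 0) = res (D.G j) hj 0
    rw [res_zero, res_zero, SecIso.map_zero]
  neg_mem' := fun {s} hs i j W hi hj => by
    show (D.φ i j).f W _ (res (D.G i) hi (-s i)) = res (D.G j) hj (-s j)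
    rw [show res (D.G j) hj (-s j) = -res (D.G j) hj (s j) from map_neg _ _]
    refine eq_neg_of_add_eq_zero_left ?_
    rw [← hs i j W hi hj, ← SecIso.map_add, ← res_add, neg_add_cancel, res_zero, SecIso.map_zero]

instance secsSMul (V : X.Opens) : SMul Γ(X, V) (D.secs V) where
  smul r s := ⟨fun i => resO X (inf_le_left : V ⊓ D.Ω i ≤ V) r • s.1 i, fun i j W hi hj => by
    rw [res_smul, res_smul, SecIso.map_smul, s.2 i j W hi hj, resO_resO, resO_resO]⟩

theorem smul_val (V : X.Opens) (r : Γ(X, V)) (s : D.secs V) (i : D.ι) :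
    (r • s).1 i = resO X (inf_le_left : V ⊓ D.Ω i ≤ V) r • s.1 i :=
  rfl

instance secsModule (V : X.Opens) : Module Γ(X, V) (D.secs V) where
  one_smul s := Subtype.ext (funext fun i => by rw [smul_val, resO_one, one_smul])
  mul_smul a b s := Subtype.ext (funext fun i => by
    rw [smul_val, smul_val, smul_val, resO_mul, mul_smul])
  smul_zero a := Subtype.ext (funext fun i => by
    rw [smul_val]
    exact smul_zero _)
  smul_add a s s' := Subtype.ext (funext fun i => by
    show resO X (inf_le_left : V ⊓ D.Ω i ≤ V) a • (s.1 i + s'.1 i) = (a • s).1 i + (a • s').1 i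
    rw [smul_val, smul_val, smul_add])
  add_smul a b s := Subtype.ext (funext fun i => by
    show resO X (inf_le_left : V ⊓ D.Ω i ≤ V) (a + b) • s.1 i = (a • s).1 i + (b • s).1 i
    rw [smul_val, smul_val, show resO X (inf_le_left : V ⊓ D.Ω i ≤ V) (a + b) = resO X _ a + resO X _ b from
      map_add _ _ _, add_smul])
  zero_smul s := Subtype.ext (funext fun i => by
    show resO X (inf_le_left : V ⊓ D.Ω i ≤ V) (0 : Γ(X, V)) • s.1 i = 0
    rw [show resO X (inf_le_left : V ⊓ D.Ω i ≤ V) (0 : Γ(X, V)) = 0 from map_zero _, zero_smul])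

/-- Restriction of families. -/
def secsRes {U V : X.Opens} (h : V ≤ U) : D.secs U →+ D.secs V where
  toFun s := ⟨fun i => res (D.G i) (inf_le_inf_right (D.Ω i) h) (s.1 i), fun i j W hi hj => by
    rw [res_res, res_res]; exact s.2 i j W _ _⟩
  map_zero' := Subtype.ext (funext fun i => res_zero _ _)
  map_add' s s' := Subtype.ext (funext fun i => res_add _ _ _ _)

theorem secsRes_val {U V : X.Opens} (h : V ≤ U) (s : D.secs U) (i : D.ι) :
    (D.secsRes h s).1 i = res (D.G i) (inf_le_inf_right (D.Ω i) h) (s.1 i) :=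
  rfl

theorem secsRes_res {U V W : X.Opens} (h : V ≤ U) (h' : W ≤ V) (s : D.secs U) :
    D.secsRes h' (D.secsRes h s) = D.secsRes (h'.trans h) s :=
  Subtype.ext (funext fun i => res_res _ _ _ _)

theorem secsRes_self {U : X.Opens} (h : U ≤ U) (s : D.secs U) : D.secsRes h s = s :=
  Subtype.ext (funext fun i => res_self _ _ _)

theorem secsRes_smul {U V : X.Opens} (h : V ≤ U) (r : Γ(X, U)) (s : D.secs U) :
    D.secsRes h (r • s) = resO X h r • D.secsRes h s :=
  Subtype.ext (funext fun i => by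
    rw [secsRes_val, smul_val, smul_val, secsRes_val, res_smul, resO_resO, resO_resO])

/-- The underlying presheaf of the glued module. -/
def abPresheaf : TopCat.Presheaf Ab.{u} X where
  obj V := AddCommGrpCat.of (D.secs V.unop)
  map {U V} g := AddCommGrpCat.ofHom (D.secsRes (leOfHom g.unop))
  map_id U := by
    apply AddCommGrpCat.hom_ext
    exact AddMonoidHom.ext fun s : D.secs U.unop => D.secsRes_self le_rfl s
  map_comp {U V W} g g' := by
    apply AddCommGrpCat.hom_ext
    exact AddMonoidHom.ext fun s : D.secs U.unop =>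
      (D.secsRes_res (leOfHom g.unop) (leOfHom g'.unop) s).symm

theorem isSheaf_abPresheaf : D.abPresheaf.IsSheaf := by
  rw [TopCat.Presheaf.isSheaf_iff_isSheafUniqueGluing]
  intro κ U sf hsf
  let fs : ∀ a, D.secs (U a) := sf
  have hfs : ∀ a b, D.secsRes (inf_le_left : U a ⊓ U b ≤ U a) (fs a) =
      D.secsRes (inf_le_right : U a ⊓ U b ≤ U b) (fs b) := fun a b => hsf a b
  have hc : ∀ (a b : κ) (W : X.Opens) (ha : W ≤ U a) (hb : W ≤ U b),
      D.secsRes ha (fs a) = D.secsRes hb (fs b) := fun a b W ha hb => by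
    have h := congrArg (D.secsRes (le_inf ha hb)) (hfs a b)
    rwa [secsRes_res, secsRes_res] at h
  have hi : ∀ i, ∃! x : Γ(D.G i, iSup U ⊓ D.Ω i), ∀ a,
      res (D.G i) (inf_le_inf_right (D.Ω i) (le_iSup U a)) x = (fs a).1 i := fun i => by
    refine existsUnique_glueSec (D.G i) (fun a => U a ⊓ D.Ω i) _ (fun p hp => ?_)
      (fun a => (fs a).1 i) fun a b W ha hb => ?_
    · obtain ⟨a, ha⟩ := Opens.mem_iSup.1 hp.1
      exact ⟨a, ha, hp.2⟩
    · have h := congrArg (fun s : D.secs (U a ⊓ U b) => s.1 i)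
        (hc a b (U a ⊓ U b) inf_le_left inf_le_right)
      simp only [secsRes_val] at h
      have h' := congrArg (res (D.G i) (le_inf (le_inf (ha.trans inf_le_left) (hb.trans inf_le_left))
        (ha.trans inf_le_right))) h
      rwa [res_res, res_res] at h'
  choose x hx hxu using hi
  have hmem : x ∈ D.secs (iSup U) := fun i j W hWi hWj => eq_of_locally _ fun p hp => by
    obtain ⟨a, ha⟩ := Opens.mem_iSup.1 ((hWi hp).1)
    refine ⟨W ⊓ U a, inf_le_left, ⟨hp, ha⟩, ?_⟩
    rw [SecIso.map_res _ _ _ _ inf_le_left, res_res, res_res,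
      ← res_res (D.G i) (inf_le_inf_right (D.Ω i) (le_iSup U a))
        (le_inf inf_le_right (inf_le_left.trans (hWi.trans inf_le_right))) (x i),
      ← res_res (D.G j) (inf_le_inf_right (D.Ω j) (le_iSup U a))
        (le_inf inf_le_right (inf_le_left.trans (hWj.trans inf_le_right))) (x j), hx i a, hx j a]
    exact (fs a).2 i j _ _ _
  refine ⟨(⟨x, hmem⟩ : D.secs (iSup U)), fun a => Subtype.ext (funext fun i => hx i a), fun y hy => ?_⟩
  exact Subtype.ext (funext fun i => hxu i ((y : D.secs (iSup U)).1 i) fun a =>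
    congrArg (fun s : D.secs (U a) => s.1 i) (hy a))

/-- The glued module. -/
def glued : X.Modules where
  val := @PresheafOfModules.ofPresheaf _ _ X.ringCatSheaf.obj D.abPresheaf
    (fun V => D.secsModule V.unop) (fun _ _ g r s => D.secsRes_smul (leOfHom g.unop) r s)
  isSheaf := D.isSheaf_abPresheaf

/-- A section of the glued module as a family. -/
def famOf {V : X.Opens} (s : Γ(D.glued, V)) : D.secs V := s

/-- A family as a section. -/
def secOf {V : X.Opens} (s : D.secs V) : Γ(D.glued, V) := s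

theorem famOf_res {U V : X.Opens} (h : V ≤ U) (s : Γ(D.glued, U)) :
    D.famOf (res D.glued h s) = D.secsRes h (D.famOf s) :=
  rfl

theorem famOf_smul {V : X.Opens} (r : Γ(X, V)) (s : Γ(D.glued, V)) :
    D.famOf (r • s) = r • D.famOf s :=
  rfl

theorem famOf_add {V : X.Opens} (s s' : Γ(D.glued, V)) :
    D.famOf (s + s') = D.famOf s + D.famOf s' :=
  rfl

/-- The family through a section on one piece. -/
theorem exists_fam (i : D.ι) (V : X.Opens) (hV : V ≤ D.Ω i) (x : Γ(D.G i, V)) :
    ∃ s : D.secs V, ∀ j, s.1 j =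
      (D.φ i j).f (V ⊓ D.Ω j) (le_inf (inf_le_left.trans hV) inf_le_right)
        (res (D.G i) inf_le_left x) := by
  refine ⟨⟨fun j => (D.φ i j).f (V ⊓ D.Ω j) (le_inf (inf_le_left.trans hV) inf_le_right)
    (res (D.G i) inf_le_left x), fun j k W hj hk => ?_⟩, fun j => rfl⟩
  rw [SecIso.map_res _ _ _ _ hj, SecIso.map_res _ _ _ _ hk, res_res, res_res]
  exact D.cocycle i j k W ((hj.trans inf_le_left).trans hV) (hj.trans inf_le_right)
    (hk.trans inf_le_right) _

/-- On a piece the glued module is the given one. -/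
def proj (i : D.ι) : SecIso D.glued (D.G i) (D.Ω i) where
  f V hV :=
    { toFun := fun s => res (D.G i) (le_inf le_rfl hV) ((D.famOf s).1 i)
      invFun := fun x => D.secOf (D.exists_fam i V hV x).choose
      left_inv := fun s => Subtype.ext (funext fun j => by
        show (D.exists_fam i V hV (res (D.G i) (le_inf le_rfl hV) ((D.famOf s).1 i))).choose.1 j =
          (D.famOf s).1 j
        rw [(D.exists_fam i V hV _).choose_spec j, res_res]
        exact ((D.famOf s).2 i j _ (le_inf inf_le_left (inf_le_left.trans hV)) le_rfl).trans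
          (res_self _ _ _))
      right_inv := fun x => by
        show res (D.G i) _ ((D.exists_fam i V hV x).choose.1 i) = x
        rw [(D.exists_fam i V hV x).choose_spec i, φ_self, res_res, res_self] }
  map_add V hV s s' := res_add _ _ _ _
  map_smul V hV r s := by
    show res (D.G i) _ ((D.famOf (r • s)).1 i) = r • res (D.G i) _ ((D.famOf s).1 i)
    rw [famOf_smul, smul_val, res_smul, resO_resO, resO_self]
  map_res V W hV h s := by
    show res (D.G i) h (res (D.G i) _ ((D.famOf s).1 i)) =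
      res (D.G i) _ ((D.famOf (res D.glued h s)).1 i)
    rw [famOf_res, secsRes_val, res_res, res_res]

theorem φ_proj (i j : D.ι) (V : X.Opens) (hi : V ≤ D.Ω i) (hj : V ≤ D.Ω j) (s : Γ(D.glued, V)) :
    (D.φ i j).f V (le_inf hi hj) ((D.proj i).f V hi s) = (D.proj j).f V hj s :=
  (D.famOf s).2 i j V (le_inf le_rfl hi) (le_inf le_rfl hj)

/-- Rigidifications of the pieces glue. -/
theorem exists_rig {σ : T ⟶ X} (hcov : ∀ w : T, ∃ i, σ.base w ∈ D.Ω i)
    (α : ∀ i, RigOn σ (D.G i) (D.Ω i))
    (hα : ∀ i j, Preserves (D.φ i j) ((α i).mono inf_le_left) ((α j).mono inf_le_right)) :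
    ∃ a : D.glued ⟶ pushUnit σ, IsLocSurj a := by
  have hglue : ∀ (V : X.Opens) (s : Γ(D.glued, V)), ∃! y : Γ(T, σ ⁻¹ᵁ V), ∀ i,
      resO T (σ.preimage_mono inf_le_left) y =
        (α i).a (V ⊓ D.Ω i) inf_le_right ((D.famOf s).1 i) := by
    intro V s
    refine existsUnique_glueFun (fun i => σ ⁻¹ᵁ (V ⊓ D.Ω i)) (fun i => σ.preimage_mono inf_le_left)
      (fun w hw => ⟨(hcov w).choose, hw, (hcov w).choose_spec⟩) _ fun i j W hi hj => ?_
    have hi' : W ≤ σ ⁻¹ᵁ (V ⊓ D.Ω i ⊓ D.Ω j) := fun w hw => ⟨hi hw, (hj hw).2⟩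
    have hle : V ⊓ D.Ω i ⊓ D.Ω j ≤ V ⊓ D.Ω j := inf_le_inf_right _ inf_le_left
    have e1 : (α j).a (V ⊓ D.Ω i ⊓ D.Ω j) inf_le_right
        ((D.φ i j).f _ (le_inf (inf_le_left.trans inf_le_right) inf_le_right)
          (res (D.G i) inf_le_left ((D.famOf s).1 i))) =
        (α i).a (V ⊓ D.Ω i ⊓ D.Ω j) (inf_le_left.trans inf_le_right)
          (res (D.G i) inf_le_left ((D.famOf s).1 i)) := hα i j _ _ _
    rw [(D.famOf s).2 i j _ inf_le_left hle,
      ← (α j).map_res _ _ inf_le_right hle, ← (α i).map_res _ _ inf_le_right inf_le_left] at e1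
    have e2 := congrArg (resO T hi') e1
    rw [resO_resO, resO_resO] at e2
    exact e2.symm
  choose f hf hfu using hglue
  have hadd : ∀ V s s', f V (s + s') = f V s + f V s' := fun V s s' =>
    (hfu V (s + s') _ fun i => by
      rw [show resO T (σ.preimage_mono (inf_le_left : V ⊓ D.Ω i ≤ V)) (f V s + f V s') =
        resO T (σ.preimage_mono inf_le_left) (f V s) + resO T (σ.preimage_mono inf_le_left) (f V s')
          from map_add _ _ _, hf, hf, ← (α i).map_add]
      rfl).symm
  have hsmul : ∀ V (r : Γ(X, V)) s, f V (r • s) = σ.app V r * f V s := fun V r s =>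
    (hfu V (r • s) _ fun i => by
      rw [resO_mul, hf, ← resO_app σ, ← (α i).map_smul]
      rfl).symm
  have hres : ∀ V W (h : W ≤ V) s, resO T (σ.preimage_mono h) (f V s) = f W (res D.glued h s) :=
    fun V W h s => hfu W _ _ fun i => by
      rw [famOf_res, secsRes_val, ← (α i).map_res _ _ inf_le_right (inf_le_inf_right (D.Ω i) h),
        ← hf V s i, resO_resO, resO_resO]
  refine ⟨⟨PresheafOfModules.homMk
    { app := fun V => AddCommGrpCat.ofHom (AddMonoidHom.mk'
        (fun s : Γ(D.glued, V.unop) => (f V.unop s : Γ(T, σ ⁻¹ᵁ V.unop))) (hadd V.unop))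
      naturality := fun U V g => by
        ext s
        exact (hres U.unop V.unop (leOfHom g.unop) s).symm }
    fun V r s => hsmul V.unop r s⟩, fun w => ?_⟩
  obtain ⟨i, hi⟩ := hcov w
  obtain ⟨V, hV, x, hx⟩ := (α i).locSurj w hi
  refine ⟨V, ((D.proj i).f V hV).symm x, ?_⟩
  show w ∈ T.basicOpen (f V (((D.proj i).f V hV).symm x))
  have e := congrArg (resO T (σ.preimage_mono (le_inf le_rfl hV : V ≤ V ⊓ D.Ω i)))
    (hf V (((D.proj i).f V hV).symm x) i)
  rw [resO_resO, resO_self, (α i).map_res _ _ inf_le_right (le_inf le_rfl hV)] at e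
  rw [e]
  have hx' : res (D.G i) (le_inf le_rfl hV) ((D.famOf (((D.proj i).f V hV).symm x)).1 i) = x :=
    ((D.proj i).f V hV).apply_symm_apply x
  rw [hx']
  exact hx

end ModData

end Glue

end FLTAgent.Jac
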