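import Fermat.Agent.Jac.Geom

/-!
# S25: pullbacks of rigidified bundles compose, up to isomorphism
-/

set_option autoImplicit false

universe u

open CategoryTheory CategoryTheory.Limits AlgebraicGeometry AlgebraicGeometry.RelPicard
  NeronModelInfra

noncomputable section

namespace FLTAgent.Jac

variable {R : Type u} [CommRing R] {C : Scheme.{u}} {c : C ⟶ Spec (CommRingCat.of R)}
  {ε : SchemeHomOver (𝟙 (Spec (CommRingCat.of R))) c}

/-- Two rigidified bundles are isomorphic. -/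
def BIso {T : Scheme.{u}} {t : T ⟶ Spec (CommRingCat.of R)}
    (M M' : RigidifiedLineBundle c ε t) : Prop :=
  Nonempty (M.L ≅ M'.L)

section

variable {T : Scheme.{u}} {t : T ⟶ Spec (CommRingCat.of R)}

theorem BIso.refl (M : RigidifiedLineBundle c ε t) : BIso M M := ⟨Iso.refl _⟩

theorem BIso.symm {M M' : RigidifiedLineBundle c ε t} (h : BIso M M') : BIso M' M :=
  ⟨h.some.symm⟩

theorem BIso.trans {M M' M'' : RigidifiedLineBundle c ε t} (h : BIso M M') (h' : BIso M' M'') :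
    BIso M M'' :=
  ⟨h.some ≪≫ h'.some⟩

theorem BIso.pullback {M M' : RigidifiedLineBundle c ε t} (h : BIso M M') {T' : Scheme.{u}}
    {t' : T' ⟶ Spec (CommRingCat.of R)} (ψ : SchemeHomOver t' t) :
    BIso (M.pullbackAlong ψ) (M'.pullbackAlong ψ) :=
  RigidifiedLineBundle.pullbackAlong_congr ψ h

theorem BIso.pullback_congr (M : RigidifiedLineBundle c ε t) {T' : Scheme.{u}}
    {t' : T' ⟶ Spec (CommRingCat.of R)} {ψ ψ' : SchemeHomOver t' t} (h : ψ.1 = ψ'.1) :
    BIso (M.pullbackAlong ψ) (M.pullbackAlong ψ') := by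
  rw [show ψ = ψ' from Subtype.ext h]
  exact BIso.refl _

/-- Pulling back twice is pulling back along the composite. -/
theorem BIso.pullback_pullback (M : RigidifiedLineBundle c ε t) {T' T'' : Scheme.{u}}
    {t' : T' ⟶ Spec (CommRingCat.of R)} {t'' : T'' ⟶ Spec (CommRingCat.of R)}
    (ψ : SchemeHomOver t' t) (χ : SchemeHomOver t'' t') (ξ : SchemeHomOver t'' t)
    (h : χ.1 ≫ ψ.1 = ξ.1) :
    BIso ((M.pullbackAlong ψ).pullbackAlong χ) (M.pullbackAlong ξ) :=
  ⟨(Scheme.Modules.pullbackComp _ _).app M.L ≪≫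
    (Scheme.Modules.pullbackCongr ((baseChangeSnd_comp c ψ χ).trans
      (congrArg (baseChangeSnd c) (show postComp ψ χ = ξ from Subtype.ext h)))).app M.L⟩

theorem BIso.pullback_id (M : RigidifiedLineBundle c ε t) (ψ : SchemeHomOver t t)
    (h : ψ.1 = 𝟙 T) : BIso (M.pullbackAlong ψ) M :=
  (BIso.pullback_congr M (ψ' := ⟨𝟙 T, Category.id_comp t⟩) h).trans
    ⟨(Scheme.Modules.pullbackCongr (baseChangeSnd_id c t)).app M.L ≪≫
      (Scheme.Modules.pullbackId (Limits.pullback c t)).app M.L⟩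

/-- An isomorphism between pullbacks, pulled back further. -/
theorem BIso.pullback_comp {T₁ T₂ T' T'' : Scheme.{u}} {t₁ : T₁ ⟶ Spec (CommRingCat.of R)}
    {t₂ : T₂ ⟶ Spec (CommRingCat.of R)} {t' : T' ⟶ Spec (CommRingCat.of R)}
    {t'' : T'' ⟶ Spec (CommRingCat.of R)} {M₁ : RigidifiedLineBundle c ε t₁}
    {M₂ : RigidifiedLineBundle c ε t₂} {a : SchemeHomOver t' t₁} {b : SchemeHomOver t' t₂}
    (h : BIso (M₁.pullbackAlong a) (M₂.pullbackAlong b)) (χ : SchemeHomOver t'' t')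
    {a' : SchemeHomOver t'' t₁} {b' : SchemeHomOver t'' t₂} (ha : χ.1 ≫ a.1 = a'.1)
    (hb : χ.1 ≫ b.1 = b'.1) : BIso (M₁.pullbackAlong a') (M₂.pullbackAlong b') :=
  ((BIso.pullback_pullback M₁ a χ a' ha).symm.trans (h.pullback χ)).trans
    (BIso.pullback_pullback M₂ b χ b' hb)

theorem mem_iff_of_bIso (S : BundleCond c ε) {M M' : RigidifiedLineBundle c ε t}
    (h : BIso M M') : S.P t M ↔ S.P t M' :=
  ⟨S.congr t M M' h, S.congr t M' M h.symm⟩

end

end FLTAgent.Jac
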