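import Fermat.Agent.Jac.Glue.Restrict

/-!
# S25: gluing representing schemes of open subconditions
-/

set_option autoImplicit false

universe u

open CategoryTheory CategoryTheory.Limits AlgebraicGeometry AlgebraicGeometry.RelPicard
  NeronModelInfra

noncomputable section

namespace FLTAgent.Jac

variable {R : Type u} [CommRing R] {C : Scheme.{u}} {c : C ⟶ Spec (CommRingCat.of R)}
  {ε : SchemeHomOver (𝟙 (Spec (CommRingCat.of R))) c}

variable (S : BundleCond c ε) {ι : Type u} (Si : ι → BundleCond c ε)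
  (hopen : ∀ i, IsOpenSubCond (Si i) S) (D : ∀ i, SubRep (Si i))

section

variable (i j : ι)

include hopen in
theorem exists_ovl : ∃ U : (D i).P.Opens, ∀ {T' : Scheme.{u}} (t' : T' ⟶ Spec (CommRingCat.of R))
    (ψ : SchemeHomOver t' (D i).toBase),
    (Si j).P t' ((D i).poincare.pullbackAlong ψ) ↔
      Set.range ψ.1.base ⊆ (U : Set (D i).P) :=
  (hopen j).2 _ _ ((hopen i).1 _ _ (D i).poincare_mem)

/-- The locus of the piece `i` where the condition `j` holds. -/
def ovl : (D i).P.Opens := (exists_ovl S Si hopen D i j).choose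

theorem ovl_spec {T' : Scheme.{u}} (t' : T' ⟶ Spec (CommRingCat.of R))
    (ψ : SchemeHomOver t' (D i).toBase) :
    (Si j).P t' ((D i).poincare.pullbackAlong ψ) ↔
      Set.range ψ.1.base ⊆ (ovl S Si hopen D i j : Set (D i).P) :=
  (exists_ovl S Si hopen D i j).choose_spec t' ψ

end

/-- The structure map of an overlap. -/
abbrev ovlBase (i j : ι) : (ovl S Si hopen D i j).toScheme ⟶ Spec (CommRingCat.of R) :=
  (ovl S Si hopen D i j).ι ≫ (D i).toBase

/-- The overlap as a scheme over the piece `i`. -/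
abbrev ovlHom (i j : ι) : SchemeHomOver (ovlBase S Si hopen D i j) (D i).toBase :=
  overMap (D i).toBase (ovl S Si hopen D i j).ι

theorem mem_ovl (i j : ι) :
    (Si j).P _ ((D i).poincare.pullbackAlong (ovlHom S Si hopen D i j)) :=
  (ovl_spec S Si hopen D i j _ _).2 (Scheme.Opens.range_ι _).subset

theorem exists_transition (i j : ι) :
    ∃ g : (ovl S Si hopen D i j).toScheme ⟶ (ovl S Si hopen D j i).toScheme,
      ∃ hg : (g ≫ (ovl S Si hopen D j i).ι) ≫ (D j).toBase = ovlBase S Si hopen D i j,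
        BIso ((D j).poincare.pullbackAlong ⟨g ≫ (ovl S Si hopen D j i).ι, hg⟩)
          ((D i).poincare.pullbackAlong (ovlHom S Si hopen D i j)) := by
  obtain ⟨g, hg, -⟩ := (D j).univ _ _ (mem_ovl S Si hopen D i j)
  have hrange : Set.range g.1.base ⊆ (ovl S Si hopen D j i : Set (D j).P) :=
    (ovl_spec S Si hopen D j i _ g).1 ((Si i).congr _ _ _ ⟨hg.some.symm⟩ ((D i).mem _))
  obtain ⟨g', hg'⟩ := SubRep.restrict_aux _ g.1 hrange
  have hw : (g' ≫ (ovl S Si hopen D j i).ι) ≫ (D j).toBase = ovlBase S Si hopen D i j := by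
    rw [hg', g.2]
  exact ⟨g', hw, (BIso.pullback_congr (D j).poincare (ψ := ⟨_, hw⟩) (ψ' := g) hg').trans hg⟩

/-- The transition map. -/
def repTrans (i j : ι) : (ovl S Si hopen D i j).toScheme ⟶ (ovl S Si hopen D j i).toScheme :=
  (exists_transition S Si hopen D i j).choose

theorem trans_base (i j : ι) :
    (repTrans S Si hopen D i j ≫ (ovl S Si hopen D j i).ι) ≫ (D j).toBase =
      ovlBase S Si hopen D i j :=
  (exists_transition S Si hopen D i j).choose_spec.choose

theorem trans_iso (i j : ι) :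
    BIso ((D j).poincare.pullbackAlong ⟨_, trans_base S Si hopen D i j⟩)
      ((D i).poincare.pullbackAlong (ovlHom S Si hopen D i j)) :=
  (exists_transition S Si hopen D i j).choose_spec.choose_spec

/-- The composite of a map into an overlap with the transition map classifies the same bundle. -/
theorem trans_comp_iso (i j : ι) {W : Scheme.{u}} {s : W ⟶ Spec (CommRingCat.of R)}
    (x : W ⟶ (ovl S Si hopen D i j).toScheme)
    (a : SchemeHomOver s (D j).toBase) (b : SchemeHomOver s (D i).toBase)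
    (ha : x ≫ repTrans S Si hopen D i j ≫ (ovl S Si hopen D j i).ι = a.1)
    (hb : x ≫ (ovl S Si hopen D i j).ι = b.1) :
    BIso ((D j).poincare.pullbackAlong a) ((D i).poincare.pullbackAlong b) :=
  BIso.pullback_comp (trans_iso S Si hopen D i j)
    (⟨x, by
      show x ≫ (ovl S Si hopen D i j).ι ≫ (D i).toBase = s
      rw [← Category.assoc, hb, b.2]⟩ : SchemeHomOver s (ovlBase S Si hopen D i j))
    ha hb

theorem trans_self (i : ι) : repTrans S Si hopen D i i = 𝟙 _ := by
  have h := SubRep.ext_hom (D i) ⟨_, trans_base S Si hopen D i i⟩ (ovlHom S Si hopen D i i)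
    (trans_iso S Si hopen D i i)
  refine (cancel_mono (ovl S Si hopen D i i).ι).1 ?_
  rw [Category.id_comp]
  exact congrArg Subtype.val h

instance isIso_ovl_self (i : ι) : IsIso (ovl S Si hopen D i i).ι := by
  have : ovl S Si hopen D i i = ⊤ := by
    refine TopologicalSpace.Opens.ext (Set.eq_univ_of_univ_subset ?_)
    intro p _
    exact (ovl_spec S Si hopen D i i _ (⟨𝟙 _, Category.id_comp _⟩ :
      SchemeHomOver (D i).toBase (D i).toBase)).1 ((D i).mem _) ⟨p, rfl⟩
  haveI : Epi (ovl S Si hopen D i i).ι.base := by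
    rw [TopCat.epi_iff_surjective]
    intro p
    exact ⟨⟨p, this ▸ trivial⟩, rfl⟩
  exact IsOpenImmersion.isIso (ovl S Si hopen D i i).ι

/-- On a triple overlap the transition map lands in the next overlap. -/
theorem exists_triple (i j k : ι) :
    ∃ g : pullback (ovl S Si hopen D i j).ι (ovl S Si hopen D i k).ι ⟶
        pullback (ovl S Si hopen D j k).ι (ovl S Si hopen D j i).ι,
      g ≫ pullback.snd _ _ = pullback.fst _ _ ≫ repTrans S Si hopen D i j := by
  let Uij := ovl S Si hopen D i j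
  let Uik := ovl S Si hopen D i k
  let s := pullback.fst Uij.ι Uik.ι ≫ ovlBase S Si hopen D i j
  let q : pullback Uij.ι Uik.ι ⟶ (D j).P :=
    pullback.fst Uij.ι Uik.ι ≫ repTrans S Si hopen D i j ≫ (ovl S Si hopen D j i).ι
  have hq : q ≫ (D j).toBase = s := by
    simp only [q, s, Category.assoc]
    rw [← Category.assoc (repTrans S Si hopen D i j), trans_base]
  let b : SchemeHomOver s (D i).toBase := ⟨pullback.fst Uij.ι Uik.ι ≫ Uij.ι, Category.assoc _ _ _⟩
  have hk : (Si k).P s ((D i).poincare.pullbackAlong b) := by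
    refine (ovl_spec S Si hopen D i k s b).2 ?_
    show Set.range (pullback.fst Uij.ι Uik.ι ≫ Uij.ι).base ⊆ _
    rw [pullback.condition]
    rintro _ ⟨x, rfl⟩
    exact ((pullback.snd Uij.ι Uik.ι).base x).2
  have hiso := trans_comp_iso S Si hopen D i j (pullback.fst Uij.ι Uik.ι)
    (⟨q, hq⟩ : SchemeHomOver s (D j).toBase) b rfl rfl
  have hrange := (ovl_spec S Si hopen D j k s ⟨q, hq⟩).1
    ((Si k).congr _ _ _ ⟨hiso.some.symm⟩ hk)
  obtain ⟨q', hq'⟩ := SubRep.restrict_aux (ovl S Si hopen D j k) q hrange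
  exact ⟨pullback.lift q' (pullback.fst _ _ ≫ repTrans S Si hopen D i j)
    (by rw [hq', Category.assoc]), pullback.lift_snd _ _ _⟩

theorem cocycle_aux (i j k : ι) :
    (exists_triple S Si hopen D i j k).choose ≫ (exists_triple S Si hopen D j k i).choose ≫
      (exists_triple S Si hopen D k i j).choose = 𝟙 _ := by
  have h₁ := (exists_triple S Si hopen D i j k).choose_spec
  have h₂ := (exists_triple S Si hopen D j k i).choose_spec
  have h₃ := (exists_triple S Si hopen D k i j).choose_spec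
  generalize (exists_triple S Si hopen D i j k).choose = g₁ at h₁ ⊢
  generalize (exists_triple S Si hopen D j k i).choose = g₂ at h₂ ⊢
  generalize (exists_triple S Si hopen D k i j).choose = g₃ at h₃ ⊢
  let Uij := ovl S Si hopen D i j
  let Ujk := ovl S Si hopen D j k
  let Uki := ovl S Si hopen D k i
  let s := pullback.fst Uij.ι (ovl S Si hopen D i k).ι ≫ ovlBase S Si hopen D i j
  -- the points in the three pieces
  let b₁ := pullback.fst Uij.ι (ovl S Si hopen D i k).ι ≫ Uij.ι
  let b₂ := g₁ ≫ pullback.fst Ujk.ι (ovl S Si hopen D j i).ι ≫ Ujk.ι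
  let b₃ := g₁ ≫ g₂ ≫ pullback.fst Uki.ι (ovl S Si hopen D k j).ι ≫ Uki.ι
  let b₄ := (g₁ ≫ g₂ ≫ g₃) ≫ pullback.fst Uij.ι (ovl S Si hopen D i k).ι ≫ Uij.ι
  have e₂ : pullback.fst Uij.ι (ovl S Si hopen D i k).ι ≫
      repTrans S Si hopen D i j ≫ (ovl S Si hopen D j i).ι = b₂ := by
    simp only [b₂, Ujk]
    rw [pullback.condition, reassoc_of% h₁]
  have e₃ : (g₁ ≫ pullback.fst Ujk.ι (ovl S Si hopen D j i).ι) ≫
      repTrans S Si hopen D j k ≫ (ovl S Si hopen D k j).ι = b₃ := by
    simp only [b₃, Uki]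
    rw [pullback.condition, reassoc_of% h₂, Category.assoc]
  have e₄ : (g₁ ≫ g₂ ≫ pullback.fst Uki.ι (ovl S Si hopen D k j).ι) ≫
      repTrans S Si hopen D k i ≫ (ovl S Si hopen D i k).ι = b₄ := by
    simp only [b₄, Uij, Category.assoc]
    rw [pullback.condition, reassoc_of% h₃]
  have w₁ : b₁ ≫ (D i).toBase = s := Category.assoc _ _ _
  have w₂ : b₂ ≫ (D j).toBase = s := by
    rw [← e₂]
    simp only [s, Category.assoc]
    rw [← Category.assoc (repTrans S Si hopen D i j), trans_base]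
  have w₃ : b₃ ≫ (D k).toBase = s := by
    rw [← e₃, ← w₂]
    simp only [b₂, Category.assoc]
    rw [← Category.assoc (repTrans S Si hopen D j k), trans_base]
  have w₄ : b₄ ≫ (D i).toBase = s := by
    rw [← e₄, ← w₃]
    simp only [b₃, Category.assoc]
    rw [← Category.assoc (repTrans S Si hopen D k i), trans_base]
  have r₁ := trans_comp_iso S Si hopen D i j _ (⟨b₂, w₂⟩ : SchemeHomOver s _) ⟨b₁, w₁⟩ e₂ rfl
  have r₂ := trans_comp_iso S Si hopen D j k _ (⟨b₃, w₃⟩ : SchemeHomOver s _) ⟨b₂, w₂⟩ e₃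
    (Category.assoc _ _ _)
  have r₃ := trans_comp_iso S Si hopen D k i _ (⟨b₄, w₄⟩ : SchemeHomOver s _) ⟨b₃, w₃⟩ e₄
    (by simp only [b₃, Uki, Category.assoc])
  have h := congrArg Subtype.val
    (SubRep.ext_hom (D i) _ _ ((r₃.trans r₂).trans r₁))
  refine (cancel_mono (pullback.fst _ _ ≫ Uij.ι)).1 ?_
  rw [Category.id_comp]
  exact h

/-- The glue data of the pieces. -/
def repGlueData : Scheme.GlueData.{u} where
  J := ι
  U i := (D i).P
  V p := (ovl S Si hopen D p.1 p.2).toScheme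
  f i j := (ovl S Si hopen D i j).ι
  f_id i := isIso_ovl_self S Si hopen D i
  f_open _ _ := inferInstance
  t i j := repTrans S Si hopen D i j
  t_id i := trans_self S Si hopen D i
  t' i j k := (exists_triple S Si hopen D i j k).choose
  t_fac i j k := (exists_triple S Si hopen D i j k).choose_spec
  cocycle i j k := cocycle_aux S Si hopen D i j k

/-- The inclusion of a piece. -/
def pieceMap (i : ι) : (D i).P ⟶ (repGlueData S Si hopen D).glued :=
  (repGlueData S Si hopen D).ι i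

instance isOpenImmersion_pieceMap (i : ι) : IsOpenImmersion (pieceMap S Si hopen D i) :=
  Scheme.GlueData.ι_isOpenImmersion (repGlueData S Si hopen D) i

theorem pieceMap_trans (i j : ι) :
    repTrans S Si hopen D i j ≫ (ovl S Si hopen D j i).ι ≫ pieceMap S Si hopen D j =
      (ovl S Si hopen D i j).ι ≫ pieceMap S Si hopen D i :=
  (repGlueData S Si hopen D).glue_condition i j

/-- Two points of pieces with the same image classify the same bundle. -/
theorem bIso_of_pieceMap_eq (i j : ι) {W : Scheme.{u}} {s : W ⟶ Spec (CommRingCat.of R)}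
    (a : SchemeHomOver s (D i).toBase) (b : SchemeHomOver s (D j).toBase)
    (h : a.1 ≫ pieceMap S Si hopen D i = b.1 ≫ pieceMap S Si hopen D j) :
    BIso ((D i).poincare.pullbackAlong a) ((D j).poincare.pullbackAlong b) := by
  have hl := (repGlueData S Si hopen D).vPullbackConeIsLimit i j
  have h1 := PullbackCone.IsLimit.lift_fst hl a.1 b.1 h
  have h2 := PullbackCone.IsLimit.lift_snd hl a.1 b.1 h
  exact (trans_comp_iso S Si hopen D i j (PullbackCone.IsLimit.lift hl a.1 b.1 h) b a h2 h1).symm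

/-- Two points of pieces classifying the same bundle have the same image. -/
theorem pieceMap_eq_of_bIso (i j : ι) {W : Scheme.{u}} {s : W ⟶ Spec (CommRingCat.of R)}
    (a : SchemeHomOver s (D i).toBase) (b : SchemeHomOver s (D j).toBase)
    (h : BIso ((D i).poincare.pullbackAlong a) ((D j).poincare.pullbackAlong b)) :
    a.1 ≫ pieceMap S Si hopen D i = b.1 ≫ pieceMap S Si hopen D j := by
  obtain ⟨x, hx⟩ := SubRep.restrict_aux (ovl S Si hopen D i j) a.1
    ((ovl_spec S Si hopen D i j s a).1 ((Si j).congr _ _ _ ⟨h.some.symm⟩ ((D j).mem b)))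
  have hw : (x ≫ repTrans S Si hopen D i j ≫ (ovl S Si hopen D j i).ι) ≫ (D j).toBase = s := by
    rw [Category.assoc, trans_base]
    show x ≫ (ovl S Si hopen D i j).ι ≫ _ = _
    rw [← Category.assoc, hx, a.2]
  have e := congrArg Subtype.val (SubRep.ext_hom (D j) ⟨_, hw⟩ b
    ((trans_comp_iso S Si hopen D i j x ⟨_, hw⟩ a rfl hx).trans h))
  rw [← show x ≫ repTrans S Si hopen D i j ≫ (ovl S Si hopen D j i).ι = b.1 from e, Category.assoc,
    Category.assoc, pieceMap_trans, ← Category.assoc, hx]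

theorem exists_toBase : ∃ τ : (repGlueData S Si hopen D).glued ⟶ Spec (CommRingCat.of R),
    ∀ i, pieceMap S Si hopen D i ≫ τ = (D i).toBase := by
  have hcond : ∀ i j, pullback.fst (pieceMap S Si hopen D i) (pieceMap S Si hopen D j) ≫
      (D i).toBase = pullback.snd _ _ ≫ (D j).toBase := by
    intro i j
    obtain ⟨x, hx₁, hx₂⟩ : ∃ x : pullback (pieceMap S Si hopen D i) (pieceMap S Si hopen D j) ⟶
        (ovl S Si hopen D i j).toScheme,
        x ≫ (ovl S Si hopen D i j).ι = pullback.fst _ _ ∧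
        x ≫ repTrans S Si hopen D i j ≫ (ovl S Si hopen D j i).ι = pullback.snd _ _ :=
      have hl := (repGlueData S Si hopen D).vPullbackConeIsLimit i j
      ⟨PullbackCone.IsLimit.lift hl _ _ pullback.condition,
        PullbackCone.IsLimit.lift_fst hl _ _ _, PullbackCone.IsLimit.lift_snd hl _ _ _⟩
    rw [← hx₁, ← hx₂, Category.assoc, Category.assoc]
    exact congrArg (x ≫ ·) ((Category.assoc _ _ _).symm.trans (trans_base S Si hopen D i j)).symm
  exact ⟨(repGlueData S Si hopen D).openCover.glueMorphisms (fun i => (D i).toBase) hcond,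
    fun i => (repGlueData S Si hopen D).openCover.ι_glueMorphisms _ hcond i⟩

include hopen in
set_option maxHeartbeats 1000000 in
/-- A local condition covered by open represented subconditions is represented. -/
theorem exists_subRep_of_cover' (hR : RigidAut c ε) (hS : IsLocalCond S)
    (hcover : ∀ (K : Type u) [Field K] [IsAlgClosed K]
      (t : Spec (CommRingCat.of K) ⟶ Spec (CommRingCat.of R)) (M : RigidifiedLineBundle c ε t),
      S.P t M → ∃ i, (Si i).P t M) :
    ∃ (E : SubRep S) (f : ∀ i, (D i).P ⟶ E.P), (∀ i, IsOpenImmersion (f i)) ∧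
      (∀ i, f i ≫ E.toBase = (D i).toBase) ∧ (∀ p : E.P, ∃ i, p ∈ Set.range (f i).base) := by
  obtain ⟨τ, hτ⟩ := exists_toBase S Si hopen D
  let pm := pieceMap S Si hopen D
  let 𝒢 : Scheme.OpenCover.{u} (repGlueData S Si hopen D).glued :=
    { I₀ := ι, X := fun i => (D i).P, f := pm
      mem₀ := (repGlueData S Si hopen D).openCover.mem₀ }
  let L : ∀ i, RigidifiedLineBundle c ε (pm i ≫ τ) := fun i =>
    (D i).poincare.pullbackAlong ⟨𝟙 _, by rw [Category.id_comp, hτ i]⟩
  have hlift : ∀ i {W : Scheme.{u}} {s : W ⟶ Spec (CommRingCat.of R)}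
      (a : SchemeHomOver s (pm i ≫ τ)) (a' : SchemeHomOver s (D i).toBase), a.1 = a'.1 →
      BIso ((L i).pullbackAlong a) ((D i).poincare.pullbackAlong a') := fun i W s a a' e =>
    BIso.pullback_pullback (D i).poincare _ a a' (by
      show a.1 ≫ 𝟙 _ = a'.1
      rw [Category.comp_id, e])
  obtain ⟨N, hN⟩ := exists_glue hR τ 𝒢 L (fun (i j : ι) {W} a b hab _ _ => by
    have hw : a ≫ (D i).toBase = a ≫ pm i ≫ τ := by rw [hτ i]
    have hw' : b ≫ (D j).toBase = a ≫ pm i ≫ τ := by
      rw [← hτ j, ← Category.assoc, ← Category.assoc]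
      exact congrArg (fun x => x ≫ τ) hab.symm
    exact ((hlift i _ ⟨a, hw⟩ rfl).trans (bIso_of_pieceMap_eq S Si hopen D i j
      (⟨a, hw⟩ : SchemeHomOver (a ≫ pm i ≫ τ) _) ⟨b, hw'⟩ hab)).trans
      (hlift j _ ⟨b, hw'⟩ rfl).symm)
  have hN' : ∀ i {W : Scheme.{u}} {s : W ⟶ Spec (CommRingCat.of R)}
      (a : SchemeHomOver s (D i).toBase) (g : SchemeHomOver s τ), a.1 ≫ pm i = g.1 →
      BIso (N.pullbackAlong g) ((D i).poincare.pullbackAlong a) := fun i W s a g e =>
    ((BIso.pullback_pullback N (overMap τ (pm i))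
        (⟨a.1, by rw [hτ i, a.2]⟩ : SchemeHomOver s (pm i ≫ τ)) g e).symm.trans
      (BIso.pullback (hN i) _)).trans (hlift i _ a rfl)
  refine ⟨⟨(repGlueData S Si hopen D).glued, τ, N, ?_, ?_⟩, pm,
    fun i => isOpenImmersion_pieceMap S Si hopen D i, hτ, fun p => ?_⟩
  · refine hS τ N 𝒢 fun i => S.congr _ _ _ ⟨(hN i).some.symm⟩ ?_
    exact S.pullback_mem _ _ _ _ ((hopen i).1 _ _ (D i).poincare_mem)
  rotate_left
  · obtain ⟨i, x, hx⟩ := (repGlueData S Si hopen D).ι_jointly_surjective p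
    exact ⟨i, x, hx⟩
  intro T t M hM
  have hloc : ∀ i, ∃ U : T.Opens, ∀ {T' : Scheme.{u}} (t' : T' ⟶ Spec (CommRingCat.of R))
      (ψ : SchemeHomOver t' t), (Si i).P t' (M.pullbackAlong ψ) ↔
        Set.range ψ.1.base ⊆ (U : Set T) := fun i => (hopen i).2 t M hM
  choose U hU using hloc
  have htop : iSup U = ⊤ := by
    refine eq_top_iff.2 fun p _ => ?_
    let K : Type u := AlgebraicClosure (T.residueField p)
    let g : Spec (CommRingCat.of K) ⟶ T :=
      Spec.map (CommRingCat.ofHom (algebraMap (T.residueField p) K)) ≫ T.fromSpecResidueField p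
    obtain ⟨i, hi⟩ := hcover K (g ≫ t) _ (S.pullback_mem _ _ (overMap t g) _ hM)
    obtain ⟨x⟩ : Nonempty (Spec (CommRingCat.of K)) :=
      inferInstanceAs (Nonempty (PrimeSpectrum K))
    have := (hU i _ (overMap t g)).1 hi ⟨x, rfl⟩
    rw [TopologicalSpace.Opens.mem_iSup]
    refine ⟨i, ?_⟩
    have hp : g.base x = p := by
      show (T.fromSpecResidueField p).base _ = p
      exact Scheme.fromSpecResidueField_apply _ _
    rw [← hp]
    exact this
  let 𝒰 : T.OpenCover := Scheme.openCoverOfIsOpenCover T U htop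
  have hgi : ∀ i, ∃ g : SchemeHomOver ((U i).ι ≫ t) (D i).toBase,
      BIso ((D i).poincare.pullbackAlong g) (M.pullbackAlong (overMap t (U i).ι)) := fun i =>
    ((D i).univ _ _ ((hU i _ _).2 (Scheme.Opens.range_ι _).subset)).exists
  choose g hg using hgi
  have hagree : ∀ i j, pullback.fst (U i).ι (U j).ι ≫ (g i).1 ≫ pm i =
      pullback.snd (U i).ι (U j).ι ≫ (g j).1 ≫ pm j := by
    intro i j
    let p := pullback.fst (U i).ι (U j).ι
    let q := pullback.snd (U i).ι (U j).ι
    let s := p ≫ (U i).ι ≫ t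
    have hq : q ≫ (U j).ι ≫ t = s := by
      simp only [s, p, q, ← Category.assoc, pullback.condition]
    have wi : (p ≫ (g i).1) ≫ (D i).toBase = s := by rw [Category.assoc, (g i).2]
    have wj : (q ≫ (g j).1) ≫ (D j).toBase = s := by rw [Category.assoc, (g j).2, hq]
    let m : SchemeHomOver s t := ⟨p ≫ (U i).ι, Category.assoc _ _ _⟩
    have bi := BIso.pullback_comp (hg i) (⟨p, rfl⟩ : SchemeHomOver s ((U i).ι ≫ t))
      (a' := (⟨_, wi⟩ : SchemeHomOver s (D i).toBase)) (b' := m) rfl rfl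
    have bj := BIso.pullback_comp (hg j) (⟨q, hq⟩ : SchemeHomOver s ((U j).ι ≫ t))
      (a' := (⟨_, wj⟩ : SchemeHomOver s (D j).toBase)) (b' := m) rfl
      (show q ≫ (U j).ι = p ≫ (U i).ι from pullback.condition.symm)
    simpa [pm, p, q] using pieceMap_eq_of_bIso S Si hopen D i j ⟨_, wi⟩ ⟨_, wj⟩ (bi.trans bj.symm)
  let G : T ⟶ (repGlueData S Si hopen D).glued :=
    𝒰.glueMorphisms (fun i => (g i).1 ≫ pm i) hagree
  have hG : ∀ i, (U i).ι ≫ G = (g i).1 ≫ pm i := fun i => 𝒰.ι_glueMorphisms _ _ i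
  have hGw : G ≫ τ = t := 𝒰.hom_ext _ _ fun (i : ι) => by
    show (U i).ι ≫ G ≫ τ = (U i).ι ≫ t
    rw [← Category.assoc, hG, Category.assoc, hτ i, (g i).2]
  have hGiso : BIso (N.pullbackAlong (⟨G, hGw⟩ : SchemeHomOver t τ)) M :=
    iso_of_local hR t 𝒰 _ _ fun (i : ι) => by
      have hw : ((g i).1 ≫ pm i) ≫ τ = (U i).ι ≫ t := by rw [Category.assoc, hτ i, (g i).2]
      exact ((BIso.pullback_pullback N (⟨G, hGw⟩ : SchemeHomOver t τ) (overMap t (U i).ι)
        (⟨_, hw⟩ : SchemeHomOver ((U i).ι ≫ t) τ) (hG i)).trans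
        (hN' i (g i) ⟨_, hw⟩ rfl)).trans (hg i)
  refine ⟨⟨G, hGw⟩, hGiso, fun y hy => Subtype.ext (Scheme.hom_ext_of_forall _ _ fun x => ?_)⟩
  obtain ⟨i, z, hz⟩ : ∃ (i : ι) (z : (D i).P), (pm i).base z = y.1.base x :=
    (repGlueData S Si hopen D).ι_jointly_surjective (y.1.base x)
  haveI : IsOpenImmersion (pm i) := isOpenImmersion_pieceMap S Si hopen D i
  let W := y.1 ⁻¹ᵁ (pm i).opensRange
  refine ⟨W, ⟨z, hz⟩, ?_⟩
  obtain ⟨a, ha⟩ : ∃ a : W.toScheme ⟶ (D i).P, a ≫ pm i = W.ι ≫ y.1 :=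
    ⟨IsOpenImmersion.lift (pm i) (W.ι ≫ y.1) (by rintro _ ⟨w, rfl⟩; exact w.2),
      IsOpenImmersion.lift_fac _ _ _⟩
  have haw : a ≫ (D i).toBase = W.ι ≫ t := by
    rw [← hτ i, ← Category.assoc, ha, Category.assoc, y.2]
  have hyw : (W.ι ≫ y.1) ≫ τ = W.ι ≫ t := by rw [Category.assoc, y.2]
  have hMa : BIso ((D i).poincare.pullbackAlong (⟨a, haw⟩ : SchemeHomOver (W.ι ≫ t) _))
      (M.pullbackAlong (overMap t W.ι)) :=
    ((hN' i ⟨a, haw⟩ (⟨_, hyw⟩ : SchemeHomOver (W.ι ≫ t) τ) ha).symm.trans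
      (BIso.pullback_pullback N y (overMap t W.ι) ⟨_, hyw⟩ rfl).symm).trans (BIso.pullback hy _)
  obtain ⟨l, hl⟩ := SubRep.restrict_aux (U i) W.ι
    ((hU i _ (overMap t W.ι)).1 ((Si i).congr _ _ _ hMa ((D i).mem _)))
  have hlw : (l ≫ (g i).1) ≫ (D i).toBase = W.ι ≫ t := by
    rw [Category.assoc, (g i).2, ← Category.assoc, hl]
  have hlg : BIso ((D i).poincare.pullbackAlong (⟨_, hlw⟩ : SchemeHomOver (W.ι ≫ t) _))
      (M.pullbackAlong (overMap t W.ι)) :=
    BIso.pullback_comp (hg i)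
      (⟨l, by rw [← Category.assoc, hl]⟩ : SchemeHomOver (W.ι ≫ t) ((U i).ι ≫ t)) rfl hl
  have e : l ≫ (g i).1 = a := congrArg Subtype.val
    (SubRep.ext_hom (D i) _ _ (hlg.trans hMa.symm))
  show W.ι ≫ y.1 = W.ι ≫ G
  rw [← ha, ← e, Category.assoc, ← hG, ← Category.assoc, hl]

end FLTAgent.Jac
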