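import Fermat.Agent.Jac.Glue.Descent

/-!
# S25: open subconditions and affine test schemes
-/

set_option autoImplicit false

universe u

open CategoryTheory CategoryTheory.Limits AlgebraicGeometry AlgebraicGeometry.RelPicard
  NeronModelInfra

noncomputable section

namespace FLTAgent.Jac

variable {R : Type u} [CommRing R] {C : Scheme.{u}} {c : C ⟶ Spec (CommRingCat.of R)}
  {ε : SchemeHomOver (𝟙 (Spec (CommRingCat.of R))) c}

/-- Two maps to a represented scheme with isomorphic pullbacks agree. -/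
theorem SubRep.ext_hom {S : BundleCond c ε} (D : SubRep S) {T : Scheme.{u}}
    {t : T ⟶ Spec (CommRingCat.of R)} (g g' : SchemeHomOver t D.toBase)
    (h : BIso (D.poincare.pullbackAlong g) (D.poincare.pullbackAlong g')) : g = g' :=
  (D.univ t _ (S.pullback_mem _ _ g' _ D.poincare_mem)).unique h (BIso.refl _)

theorem SubRep.mem {S : BundleCond c ε} (D : SubRep S) {T : Scheme.{u}}
    {t : T ⟶ Spec (CommRingCat.of R)} (g : SchemeHomOver t D.toBase) :
    S.P t (D.poincare.pullbackAlong g) :=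
  S.pullback_mem _ _ g _ D.poincare_mem

/-- A morphism over the base landing in an open subscheme. -/
theorem SubRep.restrict_aux {P : Scheme.{u}} (U : P.Opens) {T : Scheme.{u}} (g : T ⟶ P)
    (h : Set.range g.base ⊆ (U : Set P)) : ∃ g' : T ⟶ U.toScheme, g' ≫ U.ι = g :=
  ⟨IsOpenImmersion.lift U.ι g (by rwa [Scheme.Opens.range_ι]), IsOpenImmersion.lift_fac _ _ _⟩

/-- An open subcondition of a represented condition is represented by an open subscheme. -/
theorem SubRep.restrict' {S' S : BundleCond c ε} (h : IsOpenSubCond S' S) (D : SubRep S) :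
    ∃ (D' : SubRep S') (f : D'.P ⟶ D.P), IsOpenImmersion f ∧ f ≫ D.toBase = D'.toBase := by
  obtain ⟨U, hU⟩ := h.2 D.toBase D.poincare D.poincare_mem
  refine ⟨⟨U.toScheme, U.ι ≫ D.toBase, D.poincare.pullbackAlong (overMap D.toBase U.ι),
    (hU _ (overMap D.toBase U.ι)).2 ?_, ?_⟩, U.ι, inferInstance, rfl⟩
  · exact (Scheme.Opens.range_ι U).subset
  intro T t M hM
  obtain ⟨g, hg, -⟩ := D.univ t M (h.1 t M hM)
  have hrange : Set.range g.1.base ⊆ (U : Set D.P) :=
    (hU t g).1 (S'.congr t _ _ ⟨hg.some.symm⟩ hM)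
  obtain ⟨g', hg'⟩ := SubRep.restrict_aux U g.1 hrange
  have hgw : g' ≫ U.ι ≫ D.toBase = t := by rw [← Category.assoc, hg', g.2]
  refine ⟨⟨g', hgw⟩, (BIso.pullback_pullback D.poincare (overMap D.toBase U.ι) ⟨g', hgw⟩ g hg').trans hg,
    ?_⟩
  intro y hy
  have hyw : (y.1 ≫ U.ι) ≫ D.toBase = t := by rw [Category.assoc]; exact y.2
  have e := SubRep.ext_hom D ⟨y.1 ≫ U.ι, hyw⟩ g
    (((BIso.pullback_pullback D.poincare (overMap D.toBase U.ι) y ⟨y.1 ≫ U.ι, hyw⟩ rfl).symm.trans
      hy).trans (BIso.symm hg))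
  refine Subtype.ext ((cancel_mono U.ι).1 ?_)
  show y.1 ≫ U.ι = g' ≫ U.ι
  rw [hg']
  exact congrArg Subtype.val e

/-- It is enough to test the universal property on affine schemes. -/
theorem univ_of_affine' (hR : RigidAut c ε) (S : BundleCond c ε)
    {P : Scheme.{u}} (toBase : P ⟶ Spec (CommRingCat.of R))
    (poincare : RigidifiedLineBundle c ε toBase) (hmem : S.P toBase poincare)
    (huniv : ∀ (A : CommRingCat.{u}) (t : Spec A ⟶ Spec (CommRingCat.of R))
      (M : RigidifiedLineBundle c ε t), S.P t M →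
        ∃! g : SchemeHomOver t toBase, Nonempty ((poincare.pullbackAlong g).L ≅ M.L))
    {T : Scheme.{u}} (t : T ⟶ Spec (CommRingCat.of R)) (M : RigidifiedLineBundle c ε t)
    (hM : S.P t M) :
    ∃! g : SchemeHomOver t toBase, Nonempty ((poincare.pullbackAlong g).L ≅ M.L) := by
  -- uniqueness on an arbitrary scheme
  have uniq : ∀ {W : Scheme.{u}} (s : W ⟶ Spec (CommRingCat.of R)) (g g' : SchemeHomOver s toBase),
      BIso (poincare.pullbackAlong g) (poincare.pullbackAlong g') → g = g' := by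
    intro W s g g' hgg
    refine Subtype.ext (W.affineCover.hom_ext _ _ fun i => ?_)
    have hw : ∀ y : SchemeHomOver s toBase,
        (W.affineCover.f i ≫ y.1) ≫ toBase = W.affineCover.f i ≫ s := fun y => by
      rw [Category.assoc, y.2]
    have hb := BIso.pullback_comp hgg (overMap s (W.affineCover.f i))
      (a' := (⟨_, hw g⟩ : SchemeHomOver (W.affineCover.f i ≫ s) toBase))
      (b' := (⟨_, hw g'⟩ : SchemeHomOver (W.affineCover.f i ≫ s) toBase)) rfl rfl
    exact congrArg Subtype.val ((huniv _ (W.affineCover.f i ≫ s) _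
      (S.pullback_mem _ _ ⟨_, hw g'⟩ _ hmem)).unique hb (BIso.refl _))
  let 𝒰 := T.affineCover
  have hi : ∀ i, ∃ g : SchemeHomOver (𝒰.f i ≫ t) toBase,
      BIso (poincare.pullbackAlong g) (M.pullbackAlong (overMap t (𝒰.f i))) := fun i =>
    (huniv _ (𝒰.f i ≫ t) _ (S.pullback_mem _ _ (overMap t (𝒰.f i)) _ hM)).exists
  choose g hg using hi
  have hagree : ∀ i j, pullback.fst (𝒰.f i) (𝒰.f j) ≫ (g i).1 =
      pullback.snd (𝒰.f i) (𝒰.f j) ≫ (g j).1 := by
    intro i j
    let p := pullback.fst (𝒰.f i) (𝒰.f j)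
    let q := pullback.snd (𝒰.f i) (𝒰.f j)
    let s := p ≫ 𝒰.f i ≫ t
    have hq : q ≫ 𝒰.f j ≫ t = s := by
      simp only [s, p, q, ← Category.assoc, pullback.condition]
    have hgi : (p ≫ (g i).1) ≫ toBase = s := by rw [Category.assoc, (g i).2]
    have hgj : (q ≫ (g j).1) ≫ toBase = s := by rw [Category.assoc, (g j).2, hq]
    let m : SchemeHomOver s t := ⟨p ≫ 𝒰.f i, Category.assoc _ _ _⟩
    have bi := BIso.pullback_comp (hg i) (⟨p, rfl⟩ : SchemeHomOver s (𝒰.f i ≫ t))
      (a' := (⟨_, hgi⟩ : SchemeHomOver s toBase)) (b' := m) rfl rfl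
    have bj := BIso.pullback_comp (hg j) (⟨q, hq⟩ : SchemeHomOver s (𝒰.f j ≫ t))
      (a' := (⟨_, hgj⟩ : SchemeHomOver s toBase)) (b' := m) rfl
      (show q ≫ 𝒰.f j = p ≫ 𝒰.f i from pullback.condition.symm)
    exact congrArg Subtype.val (uniq s _ _ (bi.trans bj.symm))
  let G : T ⟶ P := 𝒰.glueMorphisms (fun i => (g i).1) hagree
  have hG : ∀ i, 𝒰.f i ≫ G = (g i).1 := fun i => 𝒰.ι_glueMorphisms _ _ i
  have hGw : G ≫ toBase = t := 𝒰.hom_ext _ _ fun i => by
    rw [← Category.assoc, hG, (g i).2]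
  have hiso : BIso (poincare.pullbackAlong (⟨G, hGw⟩ : SchemeHomOver t toBase)) M :=
    iso_of_local hR t 𝒰 _ _ fun i =>
      (BIso.pullback_pullback poincare (⟨G, hGw⟩ : SchemeHomOver t toBase) (overMap t (𝒰.f i)) (g i)
        (hG i)).trans (hg i)
  exact ⟨_, hiso, fun y hy => uniq t y _ (BIso.trans hy hiso.symm)⟩

end FLTAgent.Jac
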