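import Fermat.Agent.Jac.Glue.Sections
import Fermat.Prelude.Def_AlgebraicGeometry_RelativePicardFunctor

/-!
# S25: rigidifications seen on sections

A rigidification along a section `σ` is an additive map to the functions on the section which is
semilinear and somewhere invertible near every point.
-/

set_option autoImplicit false
set_option linter.unusedVariables false

universe u

open CategoryTheory AlgebraicGeometry TopologicalSpace Opposite

noncomputable section

namespace FLTAgent.Jac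

namespace Glue

variable {X T : Scheme.{u}}

/-- The structure sheaf as a module. -/
abbrev oneMod (X : Scheme.{u}) : X.Modules := SheafOfModules.unit X.ringCatSheaf

theorem oneMod_res {U V : X.Opens} (h : V ≤ U) (r : Γ(X, U)) :
    res (oneMod X) h (r : Γ(oneMod X, U)) = resO X h r :=
  rfl

theorem oneMod_smul {U : X.Opens} (r s : Γ(X, U)) :
    r • (s : Γ(oneMod X, U)) = (r * s : Γ(X, U)) :=
  rfl

/-! ### Scalars -/

/-- Multiplication by a global function, on sections. -/
def smulFun (M : X.Modules) (r : Γ(X, ⊤)) (U : X.Opens) : Γ(M, U) →+ Γ(M, U) :=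
  AddMonoidHom.mk' (fun x => resO X (le_top : U ≤ ⊤) r • x) fun x y => smul_add _ x y

theorem smulFun_res (M : X.Modules) (r : Γ(X, ⊤)) {U V : X.Opens} (h : V ≤ U) (x : Γ(M, U)) :
    smulFun M r V (res M h x) = res M h (smulFun M r U x) := by
  show resO X (le_top : V ≤ ⊤) r • res M h x = res M h (resO X (le_top : U ≤ ⊤) r • x)
  rw [res_smul, resO_resO]

theorem smulFun_smul (M : X.Modules) (r : Γ(X, ⊤)) (U : X.Opens) (a : Γ(X, U)) (x : Γ(M, U)) :
    smulFun M r U (a • x) = a • smulFun M r U x :=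
  smul_comm (resO X (le_top : U ≤ ⊤) r) a x

/-- Multiplication by a global function. -/
def smulHom (M : X.Modules) (r : Γ(X, ⊤)) : M ⟶ M :=
  ⟨PresheafOfModules.homMk
    { app := fun U => AddCommGrpCat.ofHom (smulFun M r U.unop)
      naturality := fun U V g => by
        ext x
        exact smulFun_res M r (leOfHom g.unop) x }
    fun U a x => smulFun_smul M r U.unop a x⟩

theorem smulHom_app (M : X.Modules) (r : Γ(X, ⊤)) (U : X.Opens) (x : Γ(M, U)) :
    (smulHom M r).app U x = resO X (le_top : U ≤ ⊤) r • x :=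
  rfl

theorem smulHom_one (M : X.Modules) : smulHom M 1 = 𝟙 M :=
  Scheme.Modules.hom_ext _ _ fun U => by
    ext x
    show resO X (le_top : U ≤ ⊤) 1 • x = x
    rw [resO_one, one_smul]

theorem smulHom_naturality {M M' : X.Modules} (f : M ⟶ M') (r : Γ(X, ⊤)) :
    smulHom M r ≫ f = f ≫ smulHom M' r :=
  Scheme.Modules.hom_ext _ _ fun U => by
    ext x
    exact Scheme.Modules.Hom.app_smul f _ x

/-- A section of the structure sheaf as a function. -/
def toFn {U : X.Opens} (x : Γ(oneMod X, U)) : Γ(X, U) := x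

/-- A function as a section of the structure sheaf. -/
def ofFn {U : X.Opens} (x : Γ(X, U)) : Γ(oneMod X, U) := x

theorem smul_ofFn {U : X.Opens} (r s : Γ(X, U)) : r • ofFn s = ofFn (r * s) := rfl

theorem res_ofFn {U V : X.Opens} (h : V ≤ U) (r : Γ(X, U)) :
    res (oneMod X) h (ofFn r) = ofFn (resO X h r) := rfl

theorem ofFn_toFn {U : X.Opens} (x : Γ(oneMod X, U)) : ofFn (toFn x) = x := rfl

/-- The values of a morphism to the structure sheaf. -/
def val1 {M : X.Modules} (β : M ⟶ oneMod X) (U : X.Opens) (x : Γ(M, U)) : Γ(X, U) :=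
  toFn (β.app U x)

theorem val1_smul {M : X.Modules} (β : M ⟶ oneMod X) (U : X.Opens) (r : Γ(X, U)) (x : Γ(M, U)) :
    val1 β U (r • x) = r * val1 β U x :=
  Scheme.Modules.Hom.app_smul β r x

theorem val1_res {M : X.Modules} (β : M ⟶ oneMod X) {U V : X.Opens} (h : V ≤ U) (x : Γ(M, U)) :
    resO X h (val1 β U x) = val1 β V (res M h x) :=
  res_hom_app M β h x

theorem val1_inj {M : X.Modules} (β : M ⟶ oneMod X) (U : X.Opens) {x y : Γ(M, U)} :
    β.app U x = β.app U y ↔ val1 β U x = val1 β U y := Iff.rfl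

theorem exists_eq_smulHom_oneMod (e : oneMod X ⟶ oneMod X) : ∃ r, e = smulHom (oneMod X) r := by
  refine ⟨val1 e ⊤ (ofFn 1), Scheme.Modules.hom_ext _ _ fun U => ?_⟩
  ext x
  have h1 := val1_res e (le_top : U ≤ ⊤) (ofFn (1 : Γ(X, ⊤)))
  rw [res_ofFn, resO_one] at h1
  have h2 := val1_smul e U (toFn x) (ofFn 1)
  rw [smul_ofFn, mul_one, ofFn_toFn, ← h1, mul_comm] at h2
  exact h2

theorem exists_eq_smulHom {M : X.Modules} (γ : M ≅ oneMod X) (A : M ⟶ M) :
    ∃ r, A = smulHom M r := by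
  obtain ⟨r, hr⟩ := exists_eq_smulHom_oneMod (γ.inv ≫ A ≫ γ.hom)
  refine ⟨r, (cancel_mono γ.hom).1 ?_⟩
  rw [smulHom_naturality, ← hr, Iso.hom_inv_id_assoc]

/-! ### Local generators -/

theorem lineLike_of_isInvertible {M : X.Modules} (hM : Scheme.Modules.IsInvertible M)
    (Ω : X.Opens) : LineLike M Ω := by
  intro p hp
  obtain ⟨U, hpU, ⟨e⟩⟩ := hM.exists_trivialization p
  let φ : SecIso M (oneMod X) U.ι.opensRange := secIsoOfIso U.ι
    ((Scheme.Modules.restrictFunctorIsoPullback U.ι).app M ≪≫ e ≪≫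
      (Scheme.Modules.restrictUnitIso U.ι).symm)
  have hU : U ≤ U.ι.opensRange := (Scheme.Opens.opensRange_ι U).ge
  refine ⟨U ⊓ Ω, inf_le_right, (φ.f _ (inf_le_left.trans hU)).symm (ofFn 1), ⟨hpU, hp⟩,
    fun V h => ?_⟩
  have hV : V ≤ U.ι.opensRange := h.trans (inf_le_left.trans hU)
  have : (fun r : Γ(X, V) => r • res M h ((φ.f _ (inf_le_left.trans hU)).symm (ofFn 1))) =
      fun r : Γ(X, V) => (φ.f V hV).symm (ofFn r) := funext fun r => by
    rw [φ.map_res_symm, res_ofFn, resO_one]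
    refine (φ.symm.map_smul V hV r (ofFn 1)).symm.trans ?_
    rw [smul_ofFn, mul_one]
    rfl
  rw [this]
  exact (φ.f V hV).symm.bijective

theorem LineLike.mono {G : X.Modules} {Ω Ω' : X.Opens} (h : LineLike G Ω) (hle : Ω' ≤ Ω) :
    LineLike G Ω' := fun p hp => by
  obtain ⟨U, hU, g, hpU, hg⟩ := h p (hle hp)
  refine ⟨U ⊓ Ω', inf_le_right, res G inf_le_left g, ⟨hpU, hp⟩, fun V hV => ?_⟩
  simp only [res_res]
  exact hg V (hV.trans inf_le_left)

/-! ### Rigidifications -/

/-- A rigidification along `σ` on the sections over opens contained in `Ω`. -/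
structure RigOn (σ : T ⟶ X) (G : X.Modules) (Ω : X.Opens) : Type u where
  a : ∀ V, V ≤ Ω → Γ(G, V) → Γ(T, σ ⁻¹ᵁ V)
  map_add : ∀ V hV (x y : Γ(G, V)), a V hV (x + y) = a V hV x + a V hV y
  map_smul : ∀ V hV (r : Γ(X, V)) (x : Γ(G, V)), a V hV (r • x) = σ.app V r * a V hV x
  map_res : ∀ V W hV (h : W ≤ V) (x : Γ(G, V)),
    resO T (σ.preimage_mono h) (a V hV x) = a W (h.trans hV) (res G h x)
  locSurj : ∀ w, σ.base w ∈ Ω → ∃ V hV x, w ∈ T.basicOpen (a V hV x)

namespace RigOn

variable {σ : T ⟶ X} {G G' : X.Modules} {Ω : X.Opens}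

/-- Restriction to a smaller open. -/
def mono {Ω' : X.Opens} (α : RigOn σ G Ω) (h : Ω' ≤ Ω) : RigOn σ G Ω' where
  a V hV := α.a V (hV.trans h)
  map_add V hV := α.map_add V _
  map_smul V hV := α.map_smul V _
  map_res V W hV := α.map_res V W _
  locSurj w hw := by
    obtain ⟨V, hV, x, hx⟩ := α.locSurj w (h hw)
    refine ⟨V ⊓ Ω', inf_le_right, res G inf_le_left x, ?_⟩
    rw [← α.map_res V _ hV inf_le_left x, basicOpen_resO]
    exact ⟨⟨T.basicOpen_le _ hx, hw⟩, hx⟩

/-- Transport along an isomorphism on sections. -/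
def comp (α : RigOn σ G' Ω) (φ : SecIso G G' Ω) : RigOn σ G Ω where
  a V hV x := α.a V hV (φ.f V hV x)
  map_add V hV x y := by rw [φ.map_add, α.map_add]
  map_smul V hV r x := by rw [φ.map_smul, α.map_smul]
  map_res V W hV h x := by rw [α.map_res V W hV h, φ.map_res]
  locSurj w hw := by
    obtain ⟨V, hV, x, hx⟩ := α.locSurj w hw
    exact ⟨V, hV, (φ.f V hV).symm x, by rwa [Equiv.apply_symm_apply]⟩

/-- A local generator has invertible value along the section. -/
theorem mem_basicOpen_gen (α : RigOn σ G Ω) {U : X.Opens} (hU : U ≤ Ω) (g : Γ(G, U))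
    (hg : ∀ V, ∀ h : V ≤ U, Function.Bijective fun r : Γ(X, V) => r • res G h g)
    {w : T} (hw : σ.base w ∈ U) : w ∈ T.basicOpen (α.a U hU g) := by
  obtain ⟨V, hV, x, hx⟩ := α.locSurj w (hU hw)
  obtain ⟨r, hr⟩ := (hg (V ⊓ U) inf_le_right).2 (res G inf_le_left x)
  dsimp only at hr
  have h1 := α.map_res V (V ⊓ U) hV inf_le_left x
  rw [← hr, α.map_smul, ← α.map_res U (V ⊓ U) hU inf_le_right g] at h1
  have h2 : w ∈ T.basicOpen (resO T (σ.preimage_mono (inf_le_left : V ⊓ U ≤ V)) (α.a V hV x)) := by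
    rw [basicOpen_resO]
    exact ⟨⟨T.basicOpen_le _ hx, hw⟩, hx⟩
  rw [h1, T.basicOpen_mul, basicOpen_resO] at h2
  exact h2.2.2

/-- Only `1` fixes a rigidification. -/
theorem eq_one_of_fix (β : RigOn σ G Ω) {r : Γ(T, σ ⁻¹ᵁ Ω)}
    (h : ∀ V hV x, resO T (σ.preimage_mono hV) r * β.a V hV x = β.a V hV x) : r = 1 := by
  refine eqO_of_locally fun w hw => ?_
  obtain ⟨V, hV, x, hx⟩ := β.locSurj w hw
  have hO : T.basicOpen (β.a V hV x) ≤ σ ⁻¹ᵁ V := T.basicOpen_le _
  refine ⟨_, hO.trans (σ.preimage_mono hV), hx, ?_⟩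
  have hu : IsUnit (resO T hO (β.a V hV x)) := T.toRingedSpace.isUnit_res_basicOpen _
  have h1 := congrArg (resO T hO) (h V hV x)
  rw [resO_mul, resO_resO] at h1
  rw [resO_one]
  exact hu.mul_right_cancel (h1.trans (one_mul _).symm)

/-- Any two rigidifications differ by a function on the section. -/
theorem exists_ratio (α β : RigOn σ G Ω) (hG : LineLike G Ω) :
    ∃ u : Γ(T, σ ⁻¹ᵁ Ω), ∀ V hV x,
      α.a V hV x = resO T (σ.preimage_mono hV) u * β.a V hV x := by
  have key : ∀ w : {w : T // σ.base w ∈ Ω}, ∃ (O : T.Opens) (u : Γ(T, O)),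
      w.1 ∈ O ∧ O ≤ σ ⁻¹ᵁ Ω ∧
      ∀ (V : X.Opens) (hV : V ≤ Ω) (x : Γ(G, V)) (W : T.Opens) (h1 : W ≤ O) (h2 : W ≤ σ ⁻¹ᵁ V),
        resO T h2 (α.a V hV x) = resO T h1 u * resO T h2 (β.a V hV x) := by
    rintro ⟨w, hw⟩
    obtain ⟨U, hU, g, hwU, hg⟩ := hG _ hw
    have hO : T.basicOpen (β.a U hU g) ≤ σ ⁻¹ᵁ U := T.basicOpen_le _
    obtain ⟨b, hb⟩ : ∃ b, resO T hO (β.a U hU g) * b = 1 :=
      isUnit_iff_exists_inv.1 (T.toRingedSpace.isUnit_res_basicOpen _)
    refine ⟨_, resO T hO (α.a U hU g) * b, β.mem_basicOpen_gen hU g hg hwU,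
      hO.trans (σ.preimage_mono hU), fun V hV x W h1 h2 => ?_⟩
    have hW : W ≤ σ ⁻¹ᵁ (V ⊓ U) := le_inf h2 (h1.trans hO)
    obtain ⟨r, hr⟩ := (hg (V ⊓ U) inf_le_right).2 (res G inf_le_left x)
    dsimp only at hr
    have hx : ∀ γ : RigOn σ G Ω, resO T h2 (γ.a V hV x) =
        resO T hW (σ.app (V ⊓ U) r) * resO T (h1.trans hO) (γ.a U hU g) := fun γ => by
      have e := γ.map_res V (V ⊓ U) hV inf_le_left x
      rw [← hr, γ.map_smul, ← γ.map_res U (V ⊓ U) hU inf_le_right g] at e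
      have e' := congrArg (resO T hW) e
      rwa [resO_resO, resO_mul, resO_resO] at e'
    have hb' := congrArg (resO T h1) hb
    rw [resO_mul, resO_resO, resO_one] at hb'
    rw [hx α, hx β, resO_mul, resO_resO,
      mul_comm (resO T hW (σ.app (V ⊓ U) r)) (resO T (h1.trans hO) (β.a U hU g))]
    calc _ = resO T (h1.trans hO) (α.a U hU g) *
          (resO T (h1.trans hO) (β.a U hU g) * resO T h1 b) * resO T hW (σ.app (V ⊓ U) r) := by
            rw [hb', mul_one, mul_comm]
      _ = _ := by ring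
  choose O u hwO hO hK using key
  have hcompat : ∀ (i j : {w : T // σ.base w ∈ Ω}) (W : T.Opens) (hi : W ≤ O i) (hj : W ≤ O j),
      resO T hi (u i) = resO T hj (u j) := fun i j W hi hj => eqO_of_locally fun p hp => by
    obtain ⟨V, hV, x, hx⟩ := β.locSurj p (hO i (hi hp))
    let W' := W ⊓ T.basicOpen (β.a V hV x)
    have hW' : W' ≤ σ ⁻¹ᵁ V := inf_le_right.trans (T.basicOpen_le _)
    refine ⟨W', inf_le_left, ⟨hp, hx⟩, ?_⟩
    have hu : IsUnit (resO T hW' (β.a V hV x)) := by
      have := (T.toRingedSpace.isUnit_res_basicOpen (β.a V hV x)).map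
        (T.presheaf.map (homOfLE (inf_le_right : W' ≤ _)).op).hom
      rw [show resO T hW' (β.a V hV x) = resO T (inf_le_right : W' ≤ _)
        (resO T (T.basicOpen_le _) (β.a V hV x)) from (resO_resO _ _ _).symm]
      exact this
    rw [resO_resO, resO_resO]
    exact hu.mul_right_cancel ((hK i V hV x W' (inf_le_left.trans hi) hW').symm.trans
      (hK j V hV x W' (inf_le_left.trans hj) hW'))
  obtain ⟨v, hv, -⟩ := existsUnique_glueFun O hO (fun w hw => ⟨⟨w, hw⟩, hwO ⟨w, hw⟩⟩) u hcompat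
  refine ⟨v, fun V hV x => eqO_of_locally fun w hw => ?_⟩
  let i : {w : T // σ.base w ∈ Ω} := ⟨w, hV hw⟩
  refine ⟨σ ⁻¹ᵁ V ⊓ O i, inf_le_left, ⟨hw, hwO i⟩, ?_⟩
  rw [resO_mul, hK i V hV x _ inf_le_right inf_le_left, resO_resO, ← hv i, resO_resO]

end RigOn

/-- An isomorphism on sections respects rigidifications. -/
def Preserves {σ : T ⟶ X} {G G' : X.Modules} {Ω : X.Opens} (φ : SecIso G G' Ω)
    (α : RigOn σ G Ω) (β : RigOn σ G' Ω) : Prop :=
  ∀ V hV x, β.a V hV (φ.f V hV x) = α.a V hV x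

theorem app_of_section {σ : T ⟶ X} {π : X ⟶ T} (hσ : σ ≫ π = 𝟙 T) (W : T.Opens) :
    ∃ h : σ ⁻¹ᵁ π ⁻¹ᵁ W ≤ W, ∀ r : Γ(T, W),
      σ.app (π ⁻¹ᵁ W) (π.app W r) = resO T h r := by
  have h0 : σ ⁻¹ᵁ π ⁻¹ᵁ W = W := by
    rw [← Scheme.Hom.comp_preimage, hσ, Scheme.Hom.id_preimage]
  refine ⟨h0.le, fun r => ?_⟩
  have h1 := ConcreteCategory.congr_hom (Scheme.Hom.congr_app hσ W) r
  simp only [Scheme.Hom.comp_app, Scheme.Hom.id_app, Category.id_comp] at h1
  exact h1

/-- Normalisation: some isomorphism respects the rigidifications. -/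
theorem exists_preserves {σ : T ⟶ X} {π : X ⟶ T} (hσ : σ ≫ π = 𝟙 T) (W : T.Opens)
    {G G' : X.Modules} (α : RigOn σ G (π ⁻¹ᵁ W)) (β : RigOn σ G' (π ⁻¹ᵁ W))
    (hG : LineLike G (π ⁻¹ᵁ W)) (φ : SecIso G G' (π ⁻¹ᵁ W)) :
    ∃ ψ : SecIso G G' (π ⁻¹ᵁ W), Preserves ψ α β := by
  obtain ⟨u, hu⟩ := RigOn.exists_ratio α (β.comp φ) hG
  obtain ⟨v, hv⟩ := RigOn.exists_ratio (β.comp φ) α hG
  have huv : u * v = 1 := RigOn.eq_one_of_fix α fun V hV x => by
    rw [resO_mul, mul_assoc, ← hv V hV x, ← hu V hV x]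
  obtain ⟨h0, h1⟩ := app_of_section hσ W
  have h0' : W ≤ σ ⁻¹ᵁ π ⁻¹ᵁ W := by
    rw [← Scheme.Hom.comp_preimage, hσ, Scheme.Hom.id_preimage]
  let r : (Γ(X, π ⁻¹ᵁ W))ˣ := Units.map (π.app W).hom.toMonoidHom
    (Units.map (T.presheaf.map (homOfLE h0').op).hom.toMonoidHom
      ⟨u, v, huv, by rw [mul_comm, huv]⟩)
  refine ⟨(SecIso.smulUnit G r).trans φ, fun V hV x => ?_⟩
  show β.a V hV (φ.f V hV (resO X hV (r : Γ(X, π ⁻¹ᵁ W)) • x)) = _
  rw [hu V hV x, φ.map_smul, β.map_smul, resO_app σ hV]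
  show resO T _ (σ.app (π ⁻¹ᵁ W) (π.app W (resO T h0' u))) * _ = _
  rw [h1, resO_resO, resO_resO]
  rfl

/-! ### Transposition -/

theorem app_eq_zero_of_notMem {w : T} {U : T.Opens} (r : Γ(T, U)) (hr : w ∉ T.basicOpen r) :
    (T.fromSpecResidueField w).app U r = 0 := by
  refine (basicOpen_eq_bot_iff _).1 ?_
  rw [← Scheme.preimage_basicOpen]
  refine TopologicalSpace.Opens.ext (Set.eq_empty_of_forall_notMem fun s hs => hr ?_)
  have hs' : (T.fromSpecResidueField w).base s ∈ T.basicOpen r := hs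
  rwa [Scheme.fromSpecResidueField_apply] at hs'

theorem app_ne_zero_of_mem {w : T} {U : T.Opens} (r : Γ(T, U)) (hr : w ∈ T.basicOpen r) :
    (T.fromSpecResidueField w).app U r ≠ 0 := by
  intro h0
  obtain ⟨s⟩ : Nonempty (Spec (T.residueField w)) :=
    inferInstanceAs (Nonempty (PrimeSpectrum (T.residueField w)))
  have hs : s ∈ (T.fromSpecResidueField w) ⁻¹ᵁ T.basicOpen r := by
    show (T.fromSpecResidueField w).base s ∈ T.basicOpen r
    rwa [Scheme.fromSpecResidueField_apply]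
  rw [Scheme.preimage_basicOpen, h0, Scheme.basicOpen_zero] at hs
  exact hs

/-- The evaluation at a point. -/
def residueHom (T : Scheme.{u}) (w : T) :
    oneMod T ⟶ (Scheme.Modules.pushforward (T.fromSpecResidueField w)).obj
      (oneMod (Spec (T.residueField w))) :=
  SheafOfModules.unitToPushforwardObjUnit (T.fromSpecResidueField w).toRingCatSheafHom

theorem residueHom_app (w : T) (U : T.Opens) (r : Γ(T, U)) :
    (residueHom T w).app U r = (T.fromSpecResidueField w).app U r :=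
  rfl

theorem residueHom_ne_zero (w : T) : residueHom T w ≠ 0 := by
  intro h0
  have hw : w ∈ T.basicOpen (1 : Γ(T, ⊤)) := by
    rw [Scheme.basicOpen_of_isUnit _ isUnit_one]; trivial
  refine app_ne_zero_of_mem (1 : Γ(T, ⊤)) hw ?_
  rw [← residueHom_app, h0]
  rfl

variable {σ : T ⟶ X} {G : X.Modules}

/-- Functions on the section as a module on `X`. -/
abbrev pushUnit (σ : T ⟶ X) : X.Modules := (Scheme.Modules.pushforward σ).obj (oneMod T)

/-- The value of a morphism to the functions on the section. -/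
def rigVal (α : G ⟶ pushUnit σ) (V : X.Opens) (x : Γ(G, V)) : Γ(T, σ ⁻¹ᵁ V) :=
  α.app V x

theorem rigVal_smul (α : G ⟶ pushUnit σ) (V : X.Opens) (r : Γ(X, V)) (x : Γ(G, V)) :
    rigVal α V (r • x) = σ.app V r * rigVal α V x :=
  Scheme.Modules.Hom.app_smul α r x

/-- The morphism to the functions on the section is somewhere invertible near every point. -/
def IsLocSurj (α : G ⟶ pushUnit σ) : Prop :=
  ∀ w, ∃ V x, w ∈ T.basicOpen (rigVal α V x)

/-- The rigidification of a morphism. -/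
def rigOfHom (α : G ⟶ pushUnit σ) (hα : IsLocSurj α) : RigOn σ G ⊤ where
  a V _ x := rigVal α V x
  map_add V _ x y := map_add (α.app V).hom x y
  map_smul V _ r x := rigVal_smul α V r x
  map_res V W _ h x := res_hom_app G α h x
  locSurj w _ := by
    obtain ⟨V, x, hx⟩ := hα w
    exact ⟨V, le_top, x, hx⟩

/-- The transpose of an isomorphism is somewhere invertible. -/
theorem isLocSurj_transpose (γ : (Scheme.Modules.pullback σ).obj G ≅ oneMod T) :
    IsLocSurj ((Scheme.Modules.pullbackPushforwardAdjunction σ).homEquiv _ _ γ.hom) := by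
  intro w
  by_contra hno
  push Not at hno
  refine residueHom_ne_zero (T := T) w ((cancel_epi γ.hom).1 ?_)
  rw [Limits.comp_zero]
  apply ((Scheme.Modules.pullbackPushforwardAdjunction σ).homEquiv _ _).injective
  rw [Adjunction.homEquiv_naturality_right, Adjunction.homEquiv_unit _ _ _ 0, Functor.map_zero,
    Limits.comp_zero]
  refine Scheme.Modules.hom_ext _ _ fun V => ?_
  ext x
  exact app_eq_zero_of_notMem _ (hno V x)

/-- Automorphisms fixing the rigidification are trivial along the section. -/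
theorem pullback_map_eq_id {γ : (Scheme.Modules.pullback σ).obj G ≅ oneMod T}
    (α : G ⟶ pushUnit σ) (hα : IsLocSurj α) (A : G ⟶ G) (hA : A ≫ α = α) :
    (Scheme.Modules.pullback σ).map A = 𝟙 _ := by
  let adj := Scheme.Modules.pullbackPushforwardAdjunction σ
  obtain ⟨r, hr⟩ := exists_eq_smulHom γ ((Scheme.Modules.pullback σ).map A)
  have h1 : adj.homEquiv _ _ ((Scheme.Modules.pullback σ).map A ≫ (adj.homEquiv _ _).symm α) = α := by
    rw [Adjunction.homEquiv_naturality_left, Equiv.apply_symm_apply, hA]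
  rw [hr, smulHom_naturality, Adjunction.homEquiv_naturality_right, Equiv.apply_symm_apply] at h1
  have hone : r = 1 := by
    have := RigOn.eq_one_of_fix (rigOfHom α hα) (r := resO T le_top r) fun V hV x => ?_
    · exact (resO_self (X := T) (U := ⊤) le_rfl r).symm.trans this
    · have h2 := congrArg (fun f : G ⟶ pushUnit σ => f.app V x) h1
      rw [resO_resO]
      exact h2
  rw [hr, hone, smulHom_one]

/-- An invertible module with an invertible transposed rigidification is trivial. -/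
theorem nonempty_iso_of_isLocSurj (hG : Scheme.Modules.IsInvertible G) (α : G ⟶ pushUnit σ)
    (hα : IsLocSurj α) :
    Nonempty ((Scheme.Modules.pullback σ).obj G ≅ oneMod T) := by
  let β := ((Scheme.Modules.pullbackPushforwardAdjunction σ).homEquiv G (oneMod T)).symm α
  have hL := lineLike_of_isInvertible (hG.pullback σ) (⊤ : T.Opens)
  have hgen : ∀ w : T, ∃ (U : T.Opens) (g : Γ((Scheme.Modules.pullback σ).obj G, U)),
      (∀ V, ∀ h : V ≤ U, Function.Bijective fun r : Γ(T, V) =>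
        r • res ((Scheme.Modules.pullback σ).obj G) h g) ∧ w ∈ T.basicOpen (val1 β U g) := by
    intro w
    obtain ⟨U, -, g, hwU, hg⟩ := hL w trivial
    refine ⟨U, g, hg, ?_⟩
    by_contra hw
    have h0 : β ≫ residueHom T w = 0 := Scheme.Modules.hom_ext _ _ fun V => by
      ext x
      refine app_eq_zero_of_notMem (val1 β V x) fun hx => hw ?_
      obtain ⟨r, hr⟩ := (hg (V ⊓ U) inf_le_right).2
        (res ((Scheme.Modules.pullback σ).obj G) inf_le_left x)
      dsimp only at hr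
      have e : resO T (inf_le_left : V ⊓ U ≤ V) (val1 β V x) =
          r * resO T (inf_le_right : V ⊓ U ≤ U) (val1 β U g) := by
        rw [val1_res, ← hr, val1_smul, val1_res]
      have h2 : w ∈ T.basicOpen (resO T (inf_le_left : V ⊓ U ≤ V) (val1 β V x)) := by
        rw [basicOpen_resO]
        exact ⟨⟨T.basicOpen_le _ hx, hwU⟩, hx⟩
      rw [e, T.basicOpen_mul, basicOpen_resO] at h2
      exact h2.2.2
    have h1 := congrArg ((Scheme.Modules.pullbackPushforwardAdjunction σ).homEquiv _ _) h0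
    rw [Adjunction.homEquiv_naturality_right, Equiv.apply_symm_apply, Adjunction.homEquiv_unit _ _ _ 0,
      Functor.map_zero, Limits.comp_zero] at h1
    obtain ⟨V, x, hx⟩ := hα w
    exact app_ne_zero_of_mem _ hx (congrArg (fun f : G ⟶ _ => f.app V x) h1)
  haveI : IsIso β := by
    rw [Scheme.Modules.Hom.isIso_iff_isIso_app]
    intro V
    rw [ConcreteCategory.isIso_iff_bijective]
    have hinj : ∀ V, Function.Injective (β.app V) := by
      intro V x y hxy
      refine eq_of_locally _ fun w hw => ?_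
      obtain ⟨U, g, hg, hwg⟩ := hgen w
      let W := V ⊓ T.basicOpen (val1 β U g)
      have hWU : W ≤ U := inf_le_right.trans (T.basicOpen_le _)
      refine ⟨W, inf_le_left, ⟨hw, hwg⟩, ?_⟩
      obtain ⟨r, hr⟩ := (hg W hWU).2 (res _ inf_le_left x)
      obtain ⟨s, hs⟩ := (hg W hWU).2 (res _ inf_le_left y)
      dsimp only at hr hs
      have hu : IsUnit (resO T hWU (val1 β U g)) := by
        have := (T.toRingedSpace.isUnit_res_basicOpen (val1 β U g)).map
          (T.presheaf.map (homOfLE (inf_le_right : W ≤ _)).op).hom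
        rw [show resO T hWU (val1 β U g) = resO T (inf_le_right : W ≤ _)
          (resO T (T.basicOpen_le _) (val1 β U g)) from (resO_resO _ _ _).symm]
        exact this
      have e1 := val1_res β (inf_le_left : W ≤ V) x
      have e2 := val1_res β (inf_le_left : W ≤ V) y
      rw [← hr, val1_smul, ← val1_res β hWU g] at e1
      rw [← hs, val1_smul, ← val1_res β hWU g, ← (val1_inj β V).1 hxy, e1] at e2
      rw [← hr, ← hs, show r = s from hu.mul_right_cancel e2]
    refine ⟨hinj V, fun y => ?_⟩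
    have hloc : ∀ w : {w : T // w ∈ V}, ∃ (W : T.Opens) (hWV : W ≤ V)
        (x : Γ((Scheme.Modules.pullback σ).obj G, W)),
        w.1 ∈ W ∧ β.app W x = res (oneMod T) hWV y := by
      rintro ⟨w, hw⟩
      obtain ⟨U, g, hg, hwg⟩ := hgen w
      let W := V ⊓ T.basicOpen (val1 β U g)
      have hWU : W ≤ U := inf_le_right.trans (T.basicOpen_le _)
      obtain ⟨b, hb⟩ : ∃ b, resO T hWU (val1 β U g) * b = 1 := by
        refine isUnit_iff_exists_inv.1 ?_
        have := (T.toRingedSpace.isUnit_res_basicOpen (val1 β U g)).map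
          (T.presheaf.map (homOfLE (inf_le_right : W ≤ _)).op).hom
        rw [show resO T hWU (val1 β U g) = resO T (inf_le_right : W ≤ _)
          (resO T (T.basicOpen_le _) (val1 β U g)) from (resO_resO _ _ _).symm]
        exact this
      refine ⟨W, inf_le_left, (resO T inf_le_left (toFn y) * b) • res _ hWU g, ⟨hw, hwg⟩, ?_⟩
      show ofFn (val1 β W _) = _
      rw [val1_smul, ← val1_res β hWU g, mul_assoc, mul_comm b, hb, mul_one]
      rfl
    choose W hWV x hwW hx using hloc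
    obtain ⟨z, hz, -⟩ := existsUnique_glueSec _ W hWV (fun w hw => ⟨⟨w, hw⟩, hwW ⟨w, hw⟩⟩) x
      fun i j O hi hj => hinj O (by
        rw [← res_hom_app _ β hi, ← res_hom_app _ β hj, hx, hx, res_res, res_res])
    refine ⟨z, eq_of_locally _ fun w hw => ⟨_, hWV ⟨w, hw⟩, hwW ⟨w, hw⟩, ?_⟩⟩
    rw [res_hom_app, hz, hx]
  exact ⟨asIso β⟩

end Glue

end FLTAgent.Jac
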