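import Mathlib

/-!
# S25: sheaves of modules through their sections

Local isomorphisms given on sections, gluing of sections and local generators.
-/

set_option autoImplicit false
set_option linter.unusedVariables false

universe u

open CategoryTheory AlgebraicGeometry TopologicalSpace Opposite

noncomputable section

namespace FLTAgent.Jac

namespace Glue

variable {X : Scheme.{u}}

/-- Restriction of a section of a sheaf of modules. -/
def res (G : X.Modules) {U V : X.Opens} (h : V ≤ U) (x : Γ(G, U)) : Γ(G, V) :=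
  G.presheaf.map (homOfLE h).op x

/-- Restriction of a function. -/
def resO (X : Scheme.{u}) {U V : X.Opens} (h : V ≤ U) (r : Γ(X, U)) : Γ(X, V) :=
  X.presheaf.map (homOfLE h).op r

section

variable (G : X.Modules) {U V W : X.Opens}

theorem res_res (h : V ≤ U) (h' : W ≤ V) (x : Γ(G, U)) :
    res G h' (res G h x) = res G (h'.trans h) x := by
  simp only [res, ← ConcreteCategory.comp_apply, ← Functor.map_comp, ← op_comp, homOfLE_comp]

theorem res_self (h : U ≤ U) (x : Γ(G, U)) : res G h x = x := by
  simp [res]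

theorem res_add (h : V ≤ U) (x y : Γ(G, U)) : res G h (x + y) = res G h x + res G h y :=
  map_add _ _ _

theorem res_zero (h : V ≤ U) : res G h (0 : Γ(G, U)) = 0 := map_zero _

theorem resO_resO (h : V ≤ U) (h' : W ≤ V) (r : Γ(X, U)) :
    resO X h' (resO X h r) = resO X (h'.trans h) r := by
  simp only [resO, ← ConcreteCategory.comp_apply, ← Functor.map_comp, ← op_comp, homOfLE_comp]

theorem resO_self (h : U ≤ U) (r : Γ(X, U)) : resO X h r = r := by
  simp [resO]

theorem resO_mul (h : V ≤ U) (r r' : Γ(X, U)) : resO X h (r * r') = resO X h r * resO X h r' :=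
  map_mul _ _ _

theorem resO_one (h : V ≤ U) : resO X h (1 : Γ(X, U)) = 1 := map_one _

theorem res_smul (h : V ≤ U) (r : Γ(X, U)) (x : Γ(G, U)) :
    res G h (r • x) = resO X h r • res G h x :=
  Scheme.Modules.map_smul G (homOfLE h) r x

theorem res_hom_app {G' : X.Modules} (φ : G ⟶ G') (h : V ≤ U) (x : Γ(G, U)) :
    res G' h (φ.app U x) = φ.app V (res G h x) :=
  (ConcreteCategory.congr_hom (φ.mapPresheaf.naturality (homOfLE h).op) x).symm

theorem resO_app {Y : Scheme.{u}} (f : X ⟶ Y) {U' V' : Y.Opens} (h : V' ≤ U') (r : Γ(Y, U')) :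
    f.app V' (resO Y h r) = resO X (f.preimage_mono h) (f.app U' r) :=
  ConcreteCategory.congr_hom (f.naturality (homOfLE h).op) r

theorem basicOpen_resO (h : V ≤ U) (r : Γ(X, U)) :
    X.basicOpen (resO X h r) = V ⊓ X.basicOpen r :=
  X.basicOpen_res r (homOfLE h).op

/-- The sheaf of sections. -/
def sheafOf : TopCat.Sheaf Ab X := ⟨G.presheaf, G.isSheaf⟩

/-- Sections agreeing near every point are equal. -/
theorem eq_of_locally {x y : Γ(G, U)}
    (h : ∀ p ∈ U, ∃ V, ∃ hV : V ≤ U, p ∈ V ∧ res G hV x = res G hV y) : x = y := by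
  choose V hV hp heq using h
  refine (sheafOf G).eq_of_locally_eq' (fun p : {p // p ∈ U} => V p.1 p.2) U
    (fun p => homOfLE (hV p.1 p.2)) (fun p hpU => ?_) x y fun p => heq p.1 p.2
  exact Opens.mem_iSup.2 ⟨⟨p, hpU⟩, hp p hpU⟩

/-- Compatible sections on a cover glue uniquely. -/
theorem existsUnique_glueSec {ι : Type u} (O : ι → X.Opens) (hle : ∀ i, O i ≤ U)
    (hcov : ∀ p ∈ U, ∃ i, p ∈ O i) (s : ∀ i, Γ(G, O i))
    (hs : ∀ i j (W : X.Opens) (hi : W ≤ O i) (hj : W ≤ O j), res G hi (s i) = res G hj (s j)) :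
    ∃! x : Γ(G, U), ∀ i, res G (hle i) x = s i :=
  (sheafOf G).existsUnique_gluing' O U (fun i => homOfLE (hle i))
    (fun p hp => Opens.mem_iSup.2 (hcov p hp)) s fun i j => hs i j _ inf_le_left inf_le_right

/-- Functions agreeing near every point are equal. -/
theorem eqO_of_locally {x y : Γ(X, U)}
    (h : ∀ p ∈ U, ∃ V, ∃ hV : V ≤ U, p ∈ V ∧ resO X hV x = resO X hV y) : x = y := by
  choose V hV hp heq using h
  refine X.sheaf.eq_of_locally_eq' (fun p : {p // p ∈ U} => V p.1 p.2) U
    (fun p => homOfLE (hV p.1 p.2)) (fun p hpU => ?_) x y fun p => heq p.1 p.2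
  exact Opens.mem_iSup.2 ⟨⟨p, hpU⟩, hp p hpU⟩

/-- Compatible functions on a cover glue uniquely. -/
theorem existsUnique_glueFun {ι : Type u} (O : ι → X.Opens) (hle : ∀ i, O i ≤ U)
    (hcov : ∀ p ∈ U, ∃ i, p ∈ O i) (s : ∀ i, Γ(X, O i))
    (hs : ∀ i j (W : X.Opens) (hi : W ≤ O i) (hj : W ≤ O j), resO X hi (s i) = resO X hj (s j)) :
    ∃! x : Γ(X, U), ∀ i, resO X (hle i) x = s i :=
  X.sheaf.existsUnique_gluing' O U (fun i => homOfLE (hle i))
    (fun p hp => Opens.mem_iSup.2 (hcov p hp)) s fun i j => hs i j _ inf_le_left inf_le_right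

end

/-- An isomorphism of two sheaves of modules over an open, given on sections. -/
structure SecIso (G G' : X.Modules) (Ω : X.Opens) : Type u where
  f : ∀ V, V ≤ Ω → (Γ(G, V) ≃ Γ(G', V))
  map_add : ∀ V hV (x y : Γ(G, V)), f V hV (x + y) = f V hV x + f V hV y
  map_smul : ∀ V hV (r : Γ(X, V)) (x : Γ(G, V)), f V hV (r • x) = r • f V hV x
  map_res : ∀ V W hV (h : W ≤ V) (x : Γ(G, V)),
    res G' h (f V hV x) = f W (h.trans hV) (res G h x)

namespace SecIso

variable {G G' G'' : X.Modules} {Ω : X.Opens}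

theorem map_res_symm (e : SecIso G G' Ω) {V W : X.Opens} (hV : V ≤ Ω) (h : W ≤ V)
    (y : Γ(G', V)) : res G h ((e.f V hV).symm y) = (e.f W (h.trans hV)).symm (res G' h y) := by
  rw [Equiv.eq_symm_apply, ← e.map_res V W hV h, Equiv.apply_symm_apply]

theorem map_zero (e : SecIso G G' Ω) (V : X.Opens) (hV : V ≤ Ω) : e.f V hV 0 = 0 := by
  have h := e.map_add V hV 0 0
  rw [add_zero] at h
  simpa using h

/-- The identity. -/
def refl (G : X.Modules) (Ω : X.Opens) : SecIso G G Ω where
  f _ _ := Equiv.refl _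
  map_add _ _ _ _ := rfl
  map_smul _ _ _ _ := rfl
  map_res _ _ _ _ _ := rfl

/-- The inverse. -/
def symm (e : SecIso G G' Ω) : SecIso G' G Ω where
  f V hV := (e.f V hV).symm
  map_add V hV x y := by
    rw [Equiv.symm_apply_eq, e.map_add, Equiv.apply_symm_apply, Equiv.apply_symm_apply]
  map_smul V hV r x := by rw [Equiv.symm_apply_eq, e.map_smul, Equiv.apply_symm_apply]
  map_res V W hV h x := e.map_res_symm hV h x

/-- The composite. -/
def trans (e : SecIso G G' Ω) (e' : SecIso G' G'' Ω) : SecIso G G'' Ω where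
  f V hV := (e.f V hV).trans (e'.f V hV)
  map_add V hV x y := by
    simp only [Equiv.trans_apply, e.map_add, e'.map_add]
  map_smul V hV r x := by
    simp only [Equiv.trans_apply, e.map_smul, e'.map_smul]
  map_res V W hV h x := by
    simp only [Equiv.trans_apply, e'.map_res V W hV h, e.map_res V W hV h]

/-- Restriction to a smaller open. -/
def mono {Ω' : X.Opens} (e : SecIso G G' Ω) (h : Ω' ≤ Ω) : SecIso G G' Ω' where
  f V hV := e.f V (hV.trans h)
  map_add V hV := e.map_add V _
  map_smul V hV := e.map_smul V _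
  map_res V W hV := e.map_res V W _

/-- Multiplication by an invertible function. -/
def smulUnit (G : X.Modules) (r : (Γ(X, Ω))ˣ) : SecIso G G Ω where
  f V hV :=
    { toFun := fun x => resO X hV (r : Γ(X, Ω)) • x
      invFun := fun x => resO X hV ((r⁻¹ : (Γ(X, Ω))ˣ) : Γ(X, Ω)) • x
      left_inv := fun x => by
        show _ • _ • x = x
        rw [smul_smul, ← resO_mul, Units.inv_mul, resO_one, one_smul]
      right_inv := fun x => by
        show _ • _ • x = x
        rw [smul_smul, ← resO_mul, Units.mul_inv, resO_one, one_smul] }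
  map_add V hV x y := smul_add _ x y
  map_smul V hV a x := smul_comm _ a x
  map_res V W hV h x := by
    show res G h (resO X hV (r : Γ(X, Ω)) • x) = resO X (h.trans hV) (r : Γ(X, Ω)) • res G h x
    rw [res_smul, resO_resO]

end SecIso

/-- Every point of `Ω` has a neighbourhood where `G` is free on one section. -/
def LineLike (G : X.Modules) (Ω : X.Opens) : Prop :=
  ∀ p ∈ Ω, ∃ (U : X.Opens) (hU : U ≤ Ω) (g : Γ(G, U)), p ∈ U ∧
    ∀ V, ∀ h : V ≤ U, Function.Bijective fun r : Γ(X, V) => r • res G h g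

section restrict

variable {Z : Scheme.{u}} (j : Z ⟶ X) [IsOpenImmersion j] {G G' : X.Modules}

/-- A section over an open of the range, seen in the restriction. -/
theorem image_preimage_eq' {V : X.Opens} (hV : V ≤ j.opensRange) : j ''ᵁ j ⁻¹ᵁ V = V :=
  (j.image_preimage_eq_opensRange_inf V).trans (inf_eq_right.2 hV)

/-- A morphism of restrictions on the sections over an image. -/
def appImage (e : G.restrict j ⟶ G'.restrict j) (U : Z.Opens) (x : Γ(G, j ''ᵁ U)) :
    Γ(G', j ''ᵁ U) :=
  e.app U x

theorem appImage_add (e : G.restrict j ⟶ G'.restrict j) (U : Z.Opens) (x y : Γ(G, j ''ᵁ U)) :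
    appImage j e U (x + y) = appImage j e U x + appImage j e U y :=
  _root_.map_add (e.app U).hom x y

theorem appImage_smul (e : G.restrict j ⟶ G'.restrict j) (U : Z.Opens) (r : Γ(X, j ''ᵁ U))
    (x : Γ(G, j ''ᵁ U)) : appImage j e U (r • x) = r • appImage j e U x := by
  have h : (j.appIso U).inv ((j.appIso U).hom r) = r := by
    rw [← ConcreteCategory.comp_apply, Iso.hom_inv_id]; rfl
  have h1 : appImage j e U ((j.appIso U).inv ((j.appIso U).hom r) • x) =
      (j.appIso U).inv ((j.appIso U).hom r) • appImage j e U x :=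
    Scheme.Modules.Hom.app_smul e ((j.appIso U).hom r) (x : Γ(G.restrict j, U))
  rwa [h] at h1

theorem appImage_res (e : G.restrict j ⟶ G'.restrict j) {U V : Z.Opens} (h : V ≤ U)
    (x : Γ(G, j ''ᵁ U)) : res G' (j.image_mono h) (appImage j e U x) =
      appImage j e V (res G (j.image_mono h) x) :=
  res_hom_app (G := G.restrict j) e h x

theorem appImage_comp {G'' : X.Modules} (e : G.restrict j ⟶ G'.restrict j)
    (e' : G'.restrict j ⟶ G''.restrict j) (U : Z.Opens) (x : Γ(G, j ''ᵁ U)) :
    appImage j (e ≫ e') U x = appImage j e' U (appImage j e U x) :=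
  rfl

theorem appImage_id (U : Z.Opens) (x : Γ(G, j ''ᵁ U)) :
    appImage j (𝟙 (G.restrict j)) U x = x :=
  rfl

/-- An isomorphism of restrictions gives one on sections. -/
def secIsoOfIso (e : G.restrict j ≅ G'.restrict j) : SecIso G G' j.opensRange where
  f V hV :=
    { toFun := fun x => res G' (image_preimage_eq' j hV).ge
        (appImage j e.hom (j ⁻¹ᵁ V) (res G (image_preimage_eq' j hV).le x))
      invFun := fun y => res G (image_preimage_eq' j hV).ge
        (appImage j e.inv (j ⁻¹ᵁ V) (res G' (image_preimage_eq' j hV).le y))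
      left_inv := fun x => by
        simp only [res_res, res_self]
        rw [← appImage_comp, e.hom_inv_id, appImage_id, res_res, res_self]
      right_inv := fun x => by
        simp only [res_res, res_self]
        rw [← appImage_comp, e.inv_hom_id, appImage_id, res_res, res_self] }
  map_add V hV x y := by
    show res G' _ (appImage j e.hom _ (res G _ (x + y))) = _
    rw [res_add, appImage_add, res_add]
    rfl
  map_smul V hV r x := by
    show res G' _ (appImage j e.hom _ (res G _ (r • x))) = _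
    rw [res_smul, appImage_smul, res_smul, resO_resO, resO_self]
    rfl
  map_res V W hV h x := by
    show res G' h (res G' _ (appImage j e.hom _ _)) = res G' _ (appImage j e.hom _ (res G _ (res G h x)))
    have hjW : j ⁻¹ᵁ W ≤ j ⁻¹ᵁ V := j.preimage_mono h
    rw [res_res, res_res, ← res_res G (image_preimage_eq' j hV).le
      (j.image_mono hjW) x, ← appImage_res j e.hom hjW, res_res]

/-- An isomorphism on sections gives a morphism of restrictions. -/
def homOfSecIso {Ω : X.Opens} (hΩ : j.opensRange ≤ Ω) (e : SecIso G G' Ω) :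
    G.restrict j ⟶ G'.restrict j :=
  ⟨PresheafOfModules.homMk
    { app := fun U => AddCommGrpCat.ofHom (AddMonoidHom.mk'
        (fun x : Γ(G, j ''ᵁ U.unop) =>
          e.f (j ''ᵁ U.unop) ((j.image_le_opensRange _).trans hΩ) x)
        (e.map_add _ _))
      naturality := fun U V g => by
        ext x
        exact (e.map_res (j ''ᵁ U.unop) (j ''ᵁ V.unop) ((j.image_le_opensRange _).trans hΩ)
          (j.image_mono (leOfHom g.unop)) x).symm }
    fun U r x => e.map_smul _ _ ((j.appIso U.unop).inv r) x⟩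

theorem homOfSecIso_app {Ω : X.Opens} (hΩ : j.opensRange ≤ Ω) (e : SecIso G G' Ω)
    (U : Z.Opens) (x : Γ(G, j ''ᵁ U)) :
    appImage j (homOfSecIso j hΩ e) U x =
      e.f (j ''ᵁ U) ((j.image_le_opensRange U).trans hΩ) x :=
  rfl

/-- An isomorphism on sections gives one of restrictions. -/
def isoOfSecIso {Ω : X.Opens} (hΩ : j.opensRange ≤ Ω) (e : SecIso G G' Ω) :
    G.restrict j ≅ G'.restrict j where
  hom := homOfSecIso j hΩ e
  inv := homOfSecIso j hΩ e.symm
  hom_inv_id := Scheme.Modules.hom_ext _ _ fun U => by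
    ext x
    exact (e.f _ _).symm_apply_apply x
  inv_hom_id := Scheme.Modules.hom_ext _ _ fun U => by
    ext x
    exact (e.f _ _).apply_symm_apply x

theorem isoOfSecIso_app {Ω : X.Opens} (hΩ : j.opensRange ≤ Ω) (e : SecIso G G' Ω)
    (U : Z.Opens) (x : Γ(G, j ''ᵁ U)) :
    appImage j (isoOfSecIso j hΩ e).hom U x =
      e.f (j ''ᵁ U) ((j.image_le_opensRange U).trans hΩ) x :=
  rfl

end restrict

end Glue

end FLTAgent.Jac
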